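import Fermat.Agent.S19.KM.Curve.Defs

/-!
# S19 / KM route: blueprint of the curve layer [C]

Every `sorry` is a task; prove it in the file named in the section header (same name, same
statement, namespace `Fermat.Agent.S19.KM`); never import this file from a landed file.
Only input: `Fermat/Agent/Lib/RR/*` (characteristic free: `divOf`, `degree_divOf`, `L_mono`,
`finrank_L_add_le`, `L_eq_bot_of_degree_neg`, `finrank_L_add_divOf`, `LEquivOfDiv`, ...) and
`ell_eq`, `le_ell`, `bd_nonneg` of `Curve/Defs.lean`.  No differentials, no duality.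
-/

set_option autoImplicit false

noncomputable section

namespace Fermat.Agent.S19.KM

open AlgebraicCurve Fermat.Agent.S24.FF Fermat.Agent.Lib.RR Module

variable {K F : Type*} [Field K] [Field F] [Algebra K F] [IsCurve K F]

/-! ### C0 : file `Curve/Basic.lean` -/

theorem infinite_place : Infinite (Place K F) := sorry

theorem dg_pt (v : Place K F) : dg (pt v) = 1 := sorry

theorem ell_eq_zero {D : Divisor K F} (h : dg D < 0) : ell D = 0 := sorry

theorem ell_le {D : Divisor K F} (h : -1 ≤ dg D) : (ell D : ℤ) ≤ dg D + 1 := sorry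

theorem exists_mem_L_ne_zero {D : Divisor K F} (h : gen K F ≤ dg D) : ∃ f ∈ L D, f ≠ 0 := sorry

theorem mem_L_iff {D : Divisor K F} {f : F} (hf : f ≠ 0) : f ∈ L D ↔ 0 ≤ divOf f + D := sorry

theorem dg_nonneg_of_mem_L {D : Divisor K F} {f : F} (hf : f ∈ L D) (hf0 : f ≠ 0) : 0 ≤ dg D :=
  sorry

theorem mul_mem_L {D D' : Divisor K F} {f g : F} (hf : f ∈ L D) (hg : g ∈ L D') :
    f * g ∈ L (D + D') := sorry

theorem L_mul_le (D D' : Divisor K F) : L D * L D' ≤ L (D + D') := sorry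

theorem divOf_mul {f g : F} (hf : f ≠ 0) (hg : g ≠ 0) :
    divOf (K := K) (f * g) = divOf f + divOf g := sorry

theorem divOf_inv (f : F) : divOf (K := K) f⁻¹ = - divOf f := sorry

theorem divOf_smul {c : K} (hc : c ≠ 0) (f : F) : divOf (K := K) (c • f) = divOf f := sorry

/-- multiplication by `a` : `a L(D) = L(D - (a))` -/
theorem span_singleton_mul_L {a : F} (ha : a ≠ 0) (D : Divisor K F) :
    (K ∙ a) * L D = L (D - divOf a) := sorry

theorem finrank_span_singleton_mul {a : F} (ha : a ≠ 0) (W : Submodule K F) :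
    finrank K ((K ∙ a) * W : Submodule K F) = finrank K W := sorry

/-- `l(E) = 1` for `E ≥ 0` means that `E` is the only effective divisor in its class -/
theorem eq_of_ell_eq_one {E E' : Divisor K F} (hE : 0 ≤ E) (hE' : 0 ≤ E') (h : ell E = 1)
    {y : F} (hy : y ≠ 0) (he : E' - E = divOf y) : E' = E := sorry

/-- an effective divisor of degree one is a place -/
theorem exists_eq_pt {E : Divisor K F} (hE : 0 ≤ E) (h : dg E = 1) : ∃ v, E = pt v := sorry

/-! ### C1 : file `Curve/Bpf.lean` -/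

theorem isBpf_L {D : Divisor K F} (h : bd K F + 1 ≤ dg D) : IsBpf (L D) D := sorry

/-- avoid finitely many hyperplanes (`K` is infinite) -/
theorem IsBpf.exists_forall {W : Submodule K F} {D : Divisor K F} (h : IsBpf W D)
    (s : Finset (Place K F)) : ∃ f ∈ W, f ≠ 0 ∧ ∀ v ∈ s, v.ord f = - D v := sorry

theorem IsBpf.exists_pencil {W : Submodule K F} {D : Divisor K F} (h : IsBpf W D) :
    ∃ s ∈ W, ∃ t ∈ W, s ≠ 0 ∧ t ≠ 0 ∧ ∀ v : Place K F, min (v.ord s) (v.ord t) = - D v := sorry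

theorem IsBpf.le_iff {W : Submodule K F} {D : Divisor K F} (h : IsBpf W D) (D' : Divisor K F) :
    W ≤ L D' ↔ D ≤ D' := sorry

theorem L_le_L_iff {D D' : Divisor K F} (h : bd K F + 1 ≤ dg D) : L D ≤ L D' ↔ D ≤ D' := sorry

theorem eq_of_L_eq {D D' : Divisor K F} (h : bd K F + 1 ≤ dg D) (h' : bd K F + 1 ≤ dg D')
    (e : L D = L D') : D = D' := sorry

/-! ### C1b : file `Curve/Mul.lean` (base point free pencil trick) -/

/-- kernel of `(a, b) ↦ s a + t b` on `L(D') × L(D')` is `L(D' - D)` -/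
theorem pencil_finrank {D D' : Divisor K F} {s t : F} (hs : s ≠ 0) (ht : t ≠ 0)
    (hst : ∀ v : Place K F, min (v.ord s) (v.ord t) = - D v) :
    finrank K ((K ∙ s) * L D' ⊔ (K ∙ t) * L D' : Submodule K F) + ell (D' - D) = 2 * ell D' :=
  sorry

theorem IsBpf.mul_L {W : Submodule K F} {D D' : Divisor K F} (h : IsBpf W D)
    (h' : bd K F + dg D ≤ dg D') : W * L D' = L (D + D') := sorry

theorem L_mul_L {D D' : Divisor K F} (h : bd K F + 1 ≤ dg D) (h' : bd K F + dg D ≤ dg D') :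
    L D * L D' = L (D + D') := sorry

/-! ### C2 : file `Curve/Colon.lean` -/

theorem IsBpf.forall_mul_mem_iff {W : Submodule K F} {D : Divisor K F} (h : IsBpf W D)
    (D' : Divisor K F) (u : F) : (∀ y ∈ W, u * y ∈ L D') ↔ u ∈ L (D' - D) := sorry

theorem colon_L_of_le {D₁ D D' : Divisor K F} (h : bd K F + 1 ≤ dg D) (hle : D' - D ≤ D₁) :
    colon (L D₁) (L D) (L D') = L (D' - D) := sorry

/-! ### C3 : file `Curve/General.lean` (non-special divisors by pure counting) -/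

/-- if `v₁, …, v_r` are distinct and `l(D + v_i) = l(D) + 1` for all `i`, then
`l(D + ∑ v_i) ≥ l(D) + r` -/
theorem ell_add_sum_pt_ge (D : Divisor K F) (s : Finset (Place K F))
    (hs : ∀ v ∈ s, ell (D + pt v) ≠ ell D) : ell D + s.card ≤ ell (D + ∑ v ∈ s, pt v) := sorry

theorem finite_setOf_ell_add_pt {D : Divisor K F} (h : dg D + 1 - gen K F < ell D) :
    {v : Place K F | ell (D + pt v) ≠ ell D}.Finite := sorry

theorem exists_nonspecial (Δ : Finset (Divisor K F)) (hΔ : ∀ D ∈ Δ, dg D = 0)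
    (U : Set (Place K F)) (hU : Uᶜ.Finite) :
    ∃ Q : Fin (genusFF K F) → Place K F, Function.Injective Q ∧ (∀ i, Q i ∈ U) ∧
      ∀ D ∈ Δ, ell (D + ∑ i, pt (Q i)) = 1 := sorry

/-! ### C4 : file `Curve/Graded.lean` -/

/-- the base divisor of a nonzero finite dimensional space of functions -/
theorem exists_isBpf {W : Submodule K F} {D : Divisor K F} (hW : W ≤ L D) (h0 : W ≠ ⊥) :
    ∃ E : Divisor K F, 0 ≤ E ∧ IsBpf W (D - E) := sorry

theorem exists_eq_L_of_graded (M : Divisor K F) (d : ℤ) (i₁ : ℕ) (hd : 0 ≤ d)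
    (hM : bd K F + d + gen K F + 1 ≤ i₁ * dg M)
    (I : ℕ → Submodule K F) (hI : ∀ i, i₁ ≤ i → I i ≤ L (i • M))
    (hdim : ∀ i, i₁ ≤ i → (finrank K (I i) : ℤ) = i * dg M - d + 1 - gen K F)
    (hmul : ∀ i j, i₁ ≤ i → i₁ ≤ j → L (j • M) * I i ≤ I (i + j)) :
    ∃ E : Divisor K F, 0 ≤ E ∧ dg E = d ∧ ∀ i, i₁ ≤ i → I i = L (i • M - E) := sorry

/-! ### C5 : file `Curve/Fibre.lean` (the three identities computing `E₃ ∼ E₁ + E₂ - E₀`) -/

section Fibre
variable {M E₀ E₁ E₂ E₃ : Divisor K F}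

theorem fibre_one (hM : bd K F + gen K F + 1 ≤ dg M) (h₁ : dg E₁ = gen K F)
    (h₂ : dg E₂ = gen K F) :
    L (M - E₁) * (L (M - E₂) * L (2 • M)) = L (4 • M - E₁ - E₂) := sorry

theorem fibre_two (hM : bd K F + gen K F + 1 ≤ dg M) (h₁ : dg E₁ = gen K F)
    (h₂ : dg E₂ = gen K F) (hE₀ : 0 ≤ E₀) {a : F} (ha : a ≠ 0) (haL : a ∈ L (2 • M - E₁ - E₂)) :
    colon (L (2 • M)) (L (4 • M - E₁ - E₂)) ((K ∙ a) * L (4 • M - E₀)) =
      (K ∙ a) * L (E₁ + E₂ - E₀) := sorry

theorem fibre_three (hM : bd K F + gen K F + 1 ≤ dg M) (h₀ : dg E₀ = gen K F) (hE₃ : 0 ≤ E₃)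
    {a f₀ : F} (ha : a ≠ 0) (hf₀ : f₀ ≠ 0) (hdiv : divOf f₀ = E₃ + E₀ - E₁ - E₂) :
    colon (L M) ((K ∙ a) * L (3 • M - E₀)) ((K ∙ (a * f₀)) * L (4 • M - E₁ - E₂)) =
      L (M - E₃) := sorry

end Fibre

end Fermat.Agent.S19.KM
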