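import Fermat.Agent.S19.KM.Red.Defs

/-!
# S19 / KM route: blueprint of the layers [V] (valued linear algebra) and [S] (regular families)

Mathlib only.  Every `sorry` is a task; prove it in the file named in the section header (same name,
same statement, namespace `Fermat.Agent.S19.KM.RedData`); never import this file from a landed file.
-/

set_option autoImplicit false

noncomputable section

namespace Fermat.Agent.S19.KM.RedData

open Module Submodule

variable {K F k Fk : Type*} [Field K] [Field F] [Algebra K F] [Field k] [Field Fk] [Algebra k Fk]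
variable (R : RedData K F k Fk)

/-! ### V0 : file `Red/Basic.lean` -/
section V0
variable {R}

theorem Red.unique {f : F} {fb fb' : Fk} (h : R.Red f fb) (h' : R.Red f fb') : fb = fb' := sorry
theorem Red.zero : R.Red 0 0 := sorry
theorem Red.one : R.Red 1 1 := sorry
theorem Red.add {f g : F} {fb gb : Fk} (hf : R.Red f fb) (hg : R.Red g gb) :
    R.Red (f + g) (fb + gb) := sorry
theorem Red.sub {f g : F} {fb gb : Fk} (hf : R.Red f fb) (hg : R.Red g gb) :
    R.Red (f - g) (fb - gb) := sorry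
theorem Red.mul {f g : F} {fb gb : Fk} (hf : R.Red f fb) (hg : R.Red g gb) :
    R.Red (f * g) (fb * gb) := sorry
theorem Red.smul (a : R.A) {f : F} {fb : Fk} (hf : R.Red f fb) :
    R.Red ((a : K) • f) (R.res a • fb) := sorry
theorem Red.algebraMap (a : R.A) : R.Red (algebraMap K F (a : K)) (algebraMap k Fk (R.res a)) :=
  sorry
theorem Red.inv {f : F} {fb : Fk} (hf : R.Red f fb) (h0 : fb ≠ 0) : R.Red f⁻¹ fb⁻¹ := sorry
theorem Red.ne_zero {f : F} {fb : Fk} (hf : R.Red f fb) (h0 : fb ≠ 0) : f ≠ 0 := sorry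
theorem Red.sum {ι : Type*} (t : Finset ι) {f : ι → F} {fb : ι → Fk}
    (h : ∀ i ∈ t, R.Red (f i) (fb i)) : R.Red (∑ i ∈ t, f i) (∑ i ∈ t, fb i) := sorry
theorem red_comb {ι : Type*} [Fintype ι] {v : ι → F} {vb : ι → Fk} (h : ∀ j, R.Red (v j) (vb j))
    (c : ι → R.A) : R.Red (R.comb v c) (R.combk vb c) := sorry

theorem mem_redSub {W : Submodule K F} {fb : Fk} : fb ∈ R.redSub W ↔ ∃ f ∈ W, R.Red f fb := sorry
theorem redSub_mono {W W' : Submodule K F} (h : W ≤ W') : R.redSub W ≤ R.redSub W' := sorry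
theorem redSub_mul_le (W W' : Submodule K F) : R.redSub W * R.redSub W' ≤ R.redSub (W * W') := sorry
theorem redSub_colon_le (U W W' : Submodule K F) :
    R.redSub (colon U W W') ≤ colon (R.redSub U) (R.redSub W) (R.redSub W') := sorry
/-- for `c ∈ K` either `c ∈ A` or `c⁻¹ ∈ A` is a non-unit; residue field elements lift -/
theorem exists_res_eq (c : k) : ∃ a : R.A, R.res a = c := R.res_surjective c

end V0

/-! ### V1 : file `Red/Frame.lean` -/
section V1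
variable {R} {ι : Type*} {v : ι → F} {vb : ι → Fk}

/-- scale a nontrivial relation so that all coefficients are in `A` and one is a unit -/
theorem IsFrame.linearIndependent (h : R.IsFrame v vb) : LinearIndependent K v := sorry

theorem IsFrame.sum_mem_O_iff [Fintype ι] (h : R.IsFrame v vb) (c : ι → K) :
    ∑ j, c j • v j ∈ R.O ↔ ∀ j, c j ∈ R.A := sorry

theorem IsFrame.exists_comb_of_red [Fintype ι] (h : R.IsFrame v vb) {f : F} {fb : Fk}
    (hf : f ∈ span K (Set.range v)) (hr : R.Red f fb) :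
    ∃ c : ι → R.A, f = R.comb v c ∧ fb = R.combk vb c := sorry

theorem IsFrame.redSub_span [Fintype ι] (h : R.IsFrame v vb) :
    R.redSub (span K (Set.range v)) = span k (Set.range vb) := sorry

theorem IsFrame.exists_scale [Fintype ι] (h : R.IsFrame v vb) {f : F}
    (hf : f ∈ span K (Set.range v)) (hf0 : f ≠ 0) :
    ∃ c : K, c ≠ 0 ∧ ∃ fb : Fk, fb ≠ 0 ∧ R.Red (c • f) fb := sorry

/-- every subspace of the span of a frame has a frame (Gaussian elimination with pivots of maximal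
absolute value, or: a finitely generated torsion free module over a valuation ring is free) -/
theorem IsFrame.exists_subframe [Fintype ι] (h : R.IsFrame v vb) {W : Submodule K F}
    (hW : W ≤ span K (Set.range v)) :
    ∃ (d : ℕ) (c : Fin d → ι → R.A), span K (Set.range fun a => R.comb v (c a)) = W ∧
      LinearIndependent k (fun a => R.combk vb (c a)) := sorry

theorem IsFrame.finrank_redSub [Fintype ι] (h : R.IsFrame v vb) {W : Submodule K F}
    (hW : W ≤ span K (Set.range v)) : finrank k (R.redSub W) = finrank K W := sorry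

/-- a family of elements of `W` whose reductions form a basis of a space of dimension `dim W` -/
theorem isFrame_span_eq {d : ℕ} {w : Fin d → F} {wb : Fin d → Fk} (h : R.IsFrame w wb)
    {W : Submodule K F} (hw : ∀ a, w a ∈ W) (hd : finrank K W ≤ d) [Module.Finite K W] :
    span K (Set.range w) = W := sorry

end V1

/-! ### V2 : file `Red/Graph.lean` -/
section V2
variable {R} {ι : Type*} [Fintype ι] [DecidableEq ι] {v : ι → F} {vb : ι → Fk}

theorem IsFrame.exists_isGraph (h : R.IsFrame v vb) {W : Submodule K F}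
    (hW : W ≤ span K (Set.range v)) : ∃ S u, R.IsGraph v S u W := sorry

theorem IsGraph.le_span {S : Finset ι} {u : ι → ι → R.A} {W : Submodule K F}
    (hg : R.IsGraph v S u W) : W ≤ span K (Set.range v) := sorry

theorem IsGraph.unique (h : R.IsFrame v vb) {S : Finset ι} {u u' : ι → ι → R.A}
    {W : Submodule K F} (hg : R.IsGraph v S u W) (hg' : R.IsGraph v S u' W) :
    ∀ b ∈ S, ∀ j ∉ S, u b j = u' b j := sorry

theorem IsGraph.congr {S : Finset ι} {u u' : ι → ι → R.A} {W : Submodule K F}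
    (hg : R.IsGraph v S u W) (e : ∀ b ∈ S, ∀ j ∉ S, u b j = u' b j) : R.IsGraph v S u' W := sorry

theorem IsGraph.isGraph_gcoord {S : Finset ι} {u : ι → ι → R.A} {W : Submodule K F}
    (hg : R.IsGraph v S u W) : R.IsGraph v S (R.gcoord v S W) W := sorry

theorem IsGraph.gcoord_eq (h : R.IsFrame v vb) {S : Finset ι} {u : ι → ι → R.A}
    {W : Submodule K F} (hg : R.IsGraph v S u W) :
    ∀ b ∈ S, ∀ j ∉ S, R.gcoord v S W b j = u b j := sorry

theorem IsGraph.redSub_eq (h : R.IsFrame v vb) {S : Finset ι} {u : ι → ι → R.A}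
    {W : Submodule K F} (hg : R.IsGraph v S u W) :
    R.redSub W = span k (Set.range fun b : S => vb b + ∑ j ∈ Sᶜ, R.res (u b j) • vb j) := sorry

/-- validity of a chart and the residues of the coordinates only depend on the reduction -/
theorem IsGraph.of_redSub_eq (h : R.IsFrame v vb) {S : Finset ι} {u : ι → ι → R.A}
    {W W' : Submodule K F} (hg : R.IsGraph v S u W) (hW' : W' ≤ span K (Set.range v))
    (e : R.redSub W' = R.redSub W) :
    ∃ u', R.IsGraph v S u' W' ∧ ∀ b ∈ S, ∀ j ∉ S, R.res (u' b j) = R.res (u b j) := sorry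

theorem IsGraph.redSub_eq_iff (h : R.IsFrame v vb) {S : Finset ι} {u u' : ι → ι → R.A}
    {W W' : Submodule K F} (hg : R.IsGraph v S u W) (hg' : R.IsGraph v S u' W') :
    R.redSub W' = R.redSub W ↔ ∀ b ∈ S, ∀ j ∉ S, R.res (u' b j) = R.res (u b j) := sorry

end V2

/-! ### S0 : file `Red/Local.lean` -/
section S0
variable {R} {Ω : Type*}

/-- `s⁻¹` is a polynomial in `s` (characteristic polynomial `∏ ω, (X - s ω)`, constant term a unit)-/
theorem exists_inv_mem [Finite Ω] (𝒮 : Subalgebra R.A (Ω → R.A)) {s : Ω → R.A} (hs : s ∈ 𝒮)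
    (hu : ∀ ω, IsUnit (s ω)) : ∃ t ∈ 𝒮, s * t = 1 := sorry

theorem ConstRed.isUnit_of {𝒮 : Subalgebra R.A (Ω → R.A)} (hc : R.ConstRed 𝒮) {s : Ω → R.A}
    (hs : s ∈ 𝒮) {ω₀ : Ω} (h : R.res (s ω₀) ≠ 0) : ∀ ω, IsUnit (s ω) := sorry

/-- a square matrix over `𝒮` with invertible reduction has an inverse over `𝒮` -/
theorem exists_inv_matrix [Finite Ω] {n : Type*} [Fintype n] [DecidableEq n]
    {𝒮 : Subalgebra R.A (Ω → R.A)} (hc : R.ConstRed 𝒮) (P : Matrix n n (Ω → R.A))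
    (hP : ∀ i j, P i j ∈ 𝒮) {ω₀ : Ω} (h : (P.map fun s => R.res (s ω₀)).det ≠ 0) :
    ∃ Q : Matrix n n (Ω → R.A), (∀ i j, Q i j ∈ 𝒮) ∧ P * Q = 1 ∧ Q * P = 1 := sorry

end S0

/-! ### S1 : file `Red/Kernel.lean` (constant rank) -/
section S1
variable {R} {Ω : Type*}

/-- **Kernel of a matrix of constant rank over `𝒮`.** -/
theorem exists_kernel_basis [Finite Ω] {p m : Type*} [Fintype p] [Fintype m] [DecidableEq m]
    {𝒮 : Subalgebra R.A (Ω → R.A)} (hc : R.ConstRed 𝒮) (Φ : Matrix p m (Ω → R.A))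
    (hΦ : ∀ i j, Φ i j ∈ 𝒮)
    (hdim : ∀ ω, finrank k (LinearMap.ker (Φ.map fun s => R.res (s ω)).mulVecLin) ≤
      finrank K (LinearMap.ker (Φ.map fun s => ((s ω : R.A) : K)).mulVecLin)) :
    ∃ (d : ℕ) (t : Fin d → m → Ω → R.A), (∀ a j, t a j ∈ 𝒮) ∧
      ∀ ω, span K (Set.range fun a => fun j => ((t a j ω : R.A) : K)) =
          LinearMap.ker (Φ.map fun s => ((s ω : R.A) : K)).mulVecLin ∧
        LinearIndependent k (fun a => fun j => R.res (t a j ω)) := sorry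

end S1

/-! ### S2 : file `Red/Reg.lean` -/
section S2
variable {R} {Ω : Type*} {ι : Type*} [Fintype ι] {v : ι → F} {vb : ι → Fk}

theorem IsReg.le_span {𝒮 : Subalgebra R.A (Ω → R.A)} {W : Ω → Submodule K F}
    (hW : R.IsReg 𝒮 v vb W) (ω : Ω) : W ω ≤ span K (Set.range v) := sorry

theorem IsReg.mono {𝒮 𝒮' : Subalgebra R.A (Ω → R.A)} (h : 𝒮 ≤ 𝒮') {W : Ω → Submodule K F}
    (hW : R.IsReg 𝒮 v vb W) : R.IsReg 𝒮' v vb W := sorry

/-- pull-back of a regular family along a map of index sets -/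
theorem IsReg.comp {Ω' : Type*} (π : Ω' → Ω) {𝒮 : Subalgebra R.A (Ω → R.A)}
    {𝒮' : Subalgebra R.A (Ω' → R.A)} (h : ∀ s ∈ 𝒮, s ∘ π ∈ 𝒮') {W : Ω → Submodule K F}
    (hW : R.IsReg 𝒮 v vb W) : R.IsReg 𝒮' v vb (W ∘ π) := sorry

theorem IsReg.const (h : R.IsFrame v vb) (𝒮 : Subalgebra R.A (Ω → R.A)) {W : Submodule K F}
    (hW : W ≤ span K (Set.range v)) : R.IsReg 𝒮 v vb (fun _ => W) := sorry

theorem IsReg.redSub_eq (h : R.IsFrame v vb) {𝒮 : Subalgebra R.A (Ω → R.A)} (hc : R.ConstRed 𝒮)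
    {W : Ω → Submodule K F} (hW : R.IsReg 𝒮 v vb W) (ω ω' : Ω) :
    R.redSub (W ω) = R.redSub (W ω') := sorry

/-- a regular family of positive dimension has a regular nowhere vanishing section -/
theorem IsReg.exists_section (h : R.IsFrame v vb) {𝒮 : Subalgebra R.A (Ω → R.A)}
    {W : Ω → Submodule K F} (hW : R.IsReg 𝒮 v vb W) (h0 : ∀ ω, W ω ≠ ⊥) :
    ∃ a : Ω → F, (∀ ω, a ω ∈ W ω ∧ a ω ≠ 0) ∧ R.IsReg 𝒮 v vb (fun ω => K ∙ a ω) := sorry

/-- a regular family of lines -/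
theorem IsReg.exists_generator (h : R.IsFrame v vb) {𝒮 : Subalgebra R.A (Ω → R.A)}
    {W : Ω → Submodule K F} (hW : R.IsReg 𝒮 v vb W) (h1 : ∀ ω, finrank K (W ω) = 1) :
    ∃ (a : Ω → F) (ab : Ω → Fk), ∀ ω, W ω = K ∙ a ω ∧ R.Red (a ω) (ab ω) ∧ ab ω ≠ 0 ∧
      R.redSub (W ω) = k ∙ ab ω := sorry

variable [DecidableEq ι]

theorem isReg_of_isGraph (h : R.IsFrame v vb) {𝒮 : Subalgebra R.A (Ω → R.A)}
    {W : Ω → Submodule K F} (S : Finset ι) (U : ι → ι → Ω → R.A)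
    (hU : ∀ b ∈ S, ∀ j ∉ S, U b j ∈ 𝒮) (hg : ∀ ω, R.IsGraph v S (fun b j => U b j ω) (W ω)) :
    R.IsReg 𝒮 v vb W := sorry

/-- **graph coordinates of a regular family lie in `𝒮`** -/
theorem IsReg.gcoord_mem [Finite Ω] (h : R.IsFrame v vb) {𝒮 : Subalgebra R.A (Ω → R.A)}
    (hc : R.ConstRed 𝒮) {W : Ω → Submodule K F} (hW : R.IsReg 𝒮 v vb W) (S : Finset ι) {ω₀ : Ω}
    (hg : ∃ u, R.IsGraph v S u (W ω₀)) :
    (∀ ω, ∃ u, R.IsGraph v S u (W ω)) ∧
      ∀ b ∈ S, ∀ j ∉ S, (fun ω => R.gcoord v S (W ω) b j) ∈ 𝒮 := sorry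

end S2

/-! ### S3 : file `Red/Op.lean` (the two operations) -/
section S3
variable {R} {Ω : Type*} {ι₁ ι₂ ι₃ : Type*} [Fintype ι₁] [Fintype ι₂] [Fintype ι₃]
  {v₁ : ι₁ → F} {vb₁ : ι₁ → Fk} {v₂ : ι₂ → F} {vb₂ : ι₂ → Fk} {v₃ : ι₃ → F} {vb₃ : ι₃ → Fk}

/-- structure constants are integral and reduce correctly -/
theorem exists_structure_constants (h₁ : R.IsFrame v₁ vb₁) (h₂ : R.IsFrame v₂ vb₂)
    (h₃ : R.IsFrame v₃ vb₃) (hmul : ∀ a b, v₁ a * v₂ b ∈ span K (Set.range v₃)) :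
    ∃ γ : ι₁ → ι₂ → ι₃ → R.A, ∀ a b, v₁ a * v₂ b = R.comb v₃ (γ a b) ∧
      vb₁ a * vb₂ b = R.combk vb₃ (γ a b) := sorry

/-- **Op1: products.** -/
theorem IsReg.mul (h₁ : R.IsFrame v₁ vb₁) (h₂ : R.IsFrame v₂ vb₂) (h₃ : R.IsFrame v₃ vb₃)
    (hmul : ∀ a b, v₁ a * v₂ b ∈ span K (Set.range v₃))
    {𝒮 : Subalgebra R.A (Ω → R.A)} (hc : R.ConstRed 𝒮) {W₁ W₂ : Ω → Submodule K F}
    (hW₁ : R.IsReg 𝒮 v₁ vb₁ W₁) (hW₂ : R.IsReg 𝒮 v₂ vb₂ W₂)
    (hdim : ∀ ω, finrank K (W₁ ω * W₂ ω : Submodule K F) ≤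
      finrank k (R.redSub (W₁ ω) * R.redSub (W₂ ω) : Submodule k Fk)) :
    R.IsReg 𝒮 v₃ vb₃ (fun ω => W₁ ω * W₂ ω) ∧
      ∀ ω, R.redSub (W₁ ω * W₂ ω) = R.redSub (W₁ ω) * R.redSub (W₂ ω) := sorry

/-- **Op2: colon spaces.** -/
theorem IsReg.colon [Finite Ω] (h₁ : R.IsFrame v₁ vb₁) (h₂ : R.IsFrame v₂ vb₂)
    (h₃ : R.IsFrame v₃ vb₃) (hmul : ∀ a b, v₁ a * v₂ b ∈ span K (Set.range v₃))
    {𝒮 : Subalgebra R.A (Ω → R.A)} (hc : R.ConstRed 𝒮) {W₂ W₃ : Ω → Submodule K F}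
    (hW₂ : R.IsReg 𝒮 v₂ vb₂ W₂) (hW₃ : R.IsReg 𝒮 v₃ vb₃ W₃)
    (hdim : ∀ ω, finrank k (KM.colon (span k (Set.range vb₁)) (R.redSub (W₂ ω)) (R.redSub (W₃ ω))) ≤
      finrank K (KM.colon (span K (Set.range v₁)) (W₂ ω) (W₃ ω))) :
    R.IsReg 𝒮 v₁ vb₁ (fun ω => KM.colon (span K (Set.range v₁)) (W₂ ω) (W₃ ω)) ∧
      ∀ ω, R.redSub (KM.colon (span K (Set.range v₁)) (W₂ ω) (W₃ ω)) =
        KM.colon (span k (Set.range vb₁)) (R.redSub (W₂ ω)) (R.redSub (W₃ ω)) := sorry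

end S3

end Fermat.Agent.S19.KM.RedData
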