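import Fermat.Agent.S19.KM.GR.Defs
import Fermat.Agent.S19.KM.WIP.CurveBP
import Fermat.Agent.S19.KM.WIP.RedBP

/-!
# S19 / KM route: blueprint of layer [D]  (reduction of divisors by dimension counts)

Every `sorry` is a task; prove it in the file named in the section header (same name, same
statement); never import this file from a landed file.
Inputs: `WIP/CurveBP.lean` (on BOTH curves `F/K` and `Fk/k`), `WIP/RedBP.lean` sections V0, V1.
-/

set_option autoImplicit false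

noncomputable section

namespace Fermat.Agent.S19.KM

open AlgebraicCurve Fermat.Agent.S24.FF Fermat.Agent.Lib.RR Module Submodule

variable {K F k Fk : Type*} [Field K] [Field F] [Algebra K F] [Field k] [Field Fk] [Algebra k Fk]

/-! ### G0 : file `GR/Semilinear.lean` : semilinear automorphisms (one curve, no reduction) -/
section G0

theorem mapSub_L (g : SemilinearAut K F) (D : Divisor K F) : mapSub g (L D) = L (g • D) := sorry

theorem finrank_mapSub (g : SemilinearAut K F) (W : Submodule K F) :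
    finrank K (mapSub g W) = finrank K W := sorry

theorem ell_smul (g : SemilinearAut K F) (D : Divisor K F) : ell (g • D) = ell D := sorry

theorem smul_divOf [IsCurve K F] (g : SemilinearAut K F) (f : F) :
    g • divOf (K := K) f = divOf (g • f) := sorry

theorem smul_poleDiv [IsCurve K F] (g : SemilinearAut K F) (f : F) :
    g • poleDiv (K := K) f = poleDiv (g • f) := sorry

theorem smul_nonneg_iff (g : SemilinearAut K F) (D : Divisor K F) : 0 ≤ g • D ↔ 0 ≤ D := sorry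

theorem Rep.smul (g : SemilinearAut K F) {D : Divisor K F} {c : Pic0 K F} (h : Rep D c) :
    Rep (g • D) (g • c) := sorry

theorem Rep.add {D D' : Divisor K F} {c c' : Pic0 K F} (h : Rep D c) (h' : Rep D' c') :
    Rep (D + D') (c + c') := sorry

theorem Rep.sub {D D' : Divisor K F} {c c' : Pic0 K F} (h : Rep D c) (h' : Rep D' c') :
    Rep (D - D') (c - c') := sorry

theorem exists_rep (c : Pic0 K F) : ∃ D, Rep D c := sorry

/-- two representatives differ by a principal divisor -/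
theorem Rep.exists_divOf [IsCurve K F] {D D' : Divisor K F} {c : Pic0 K F} (h : Rep D c)
    (h' : Rep D' c) : ∃ y : F, y ≠ 0 ∧ D - D' = divOf y := sorry

theorem Rep.of_divOf [IsCurve K F] {D D' : Divisor K F} {c : Pic0 K F} (h : Rep D c) {y : F}
    (hy : y ≠ 0) (e : D' - D = divOf y) : Rep D' c := sorry

end G0

/-! ### G1 : file `GR/Dec.lean` : decomposition and inertia (no curves) -/
section G1
variable {R : RedData K F k Fk}

theorem RedData.IsIne.isDec {g : SemilinearAut K F} (h : R.IsIne g) : R.IsDec g := sorry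
theorem RedData.IsIne.inv {g : SemilinearAut K F} (h : R.IsIne g) : R.IsIne g⁻¹ := sorry
theorem RedData.IsDec.inv {g : SemilinearAut K F} (h : R.IsDec g) : R.IsDec g⁻¹ := sorry
theorem RedData.IsDec.mul {g g' : SemilinearAut K F} (h : R.IsDec g) (h' : R.IsDec g') :
    R.IsDec (g * g') := sorry
/-- inertia is normal in the decomposition group -/
theorem RedData.IsIne.conj (hsurj : Function.Surjective R.red) {g h : SemilinearAut K F}
    (hg : R.IsDec g) (hh : R.IsIne h) : R.IsIne (g * h * g⁻¹) := sorry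
theorem RedData.IsIne.redSub_mapSub {g : SemilinearAut K F} (h : R.IsIne g) (W : Submodule K F) :
    R.redSub (mapSub g W) = R.redSub W := sorry
theorem RedData.IsIne.res_eq {g : SemilinearAut K F} (h : R.IsIne g) (a : R.A)
    (ha : SemilinearAut.baseAut g (a : K) ∈ R.A) :
    R.res ⟨SemilinearAut.baseAut g (a : K), ha⟩ = R.res a := sorry
/-- an element of the decomposition group induces a semilinear automorphism of the residue field -/
theorem RedData.IsDec.exists_resAut (hsurj : Function.Surjective R.red) {g : SemilinearAut K F}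
    (hg : R.IsDec g) : ∃ gb : SemilinearAut k Fk, (∀ f fb, R.Red f fb → R.Red (g • f) (gb • fb)) ∧
      ∀ W : Submodule K F, R.redSub (mapSub g W) = mapSub gb (R.redSub W) := sorry

end G1

variable [IsCurve K F] [IsCurve k Fk] (𝔊 : GRData K F k Fk)

namespace GRData

/-! ### D0 : file `Deuring/Basic.lean` -/

theorem M_nonneg : 0 ≤ 𝔊.M := sorry
theorem Mk_nonneg : 0 ≤ 𝔊.Mk := sorry
theorem n_pos : 0 < 𝔊.n := sorry
theorem dg_Mk : dg 𝔊.Mk = 𝔊.n := sorry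
theorem smul_M {g : SemilinearAut K F} (hg : g ∈ 𝔊.Γ) : g • 𝔊.M = 𝔊.M := sorry

theorem redSub_L {i : ℕ} (hi : 𝔊.i₀ ≤ i) : 𝔊.redSub (L (i • 𝔊.M)) = L (i • 𝔊.Mk) := sorry

theorem finrank_redSub {i : ℕ} (hi : 𝔊.i₀ ≤ i) {W : Submodule K F} (hW : W ≤ L (i • 𝔊.M)) :
    finrank k (𝔊.redSub W) = finrank K W := sorry

include 𝔊 in
/-- compare `l(iM)` and `l(i Mk)` for large `i` -/
theorem genus_eq : gen K F = gen k Fk := sorry

theorem exists_big (d : ℤ) : ∃ i, ∀ j, i ≤ j → 𝔊.Big d j := sorry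

theorem Big.mono {d d' : ℤ} {i i' : ℕ} (h : 𝔊.Big d i) (hd : d' ≤ d) (hi : i ≤ i') : 𝔊.Big d' i' :=
  sorry

/-- nonzero elements of `L(iM)` can be scaled to have nonzero reduction -/
theorem exists_scale {i : ℕ} (hi : 𝔊.i₀ ≤ i) {f : F} (hf : f ∈ L (i • 𝔊.M)) (hf0 : f ≠ 0) :
    ∃ c : K, c ≠ 0 ∧ ∃ fb : Fk, fb ≠ 0 ∧ 𝔊.Red (c • f) fb := sorry

/-! ### D1 : file `Deuring/Exists.lean` -/

/-- apply `exists_eq_L_of_graded` on `Fk` to `I i = redSub (L (iM - E))` -/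
theorem exists_isRdiv {E : Divisor K F} (hE : 0 ≤ E) : ∃ Eb, 𝔊.IsRdiv E Eb := sorry

theorem IsRdiv.unique {E : Divisor K F} {Eb Eb' : Divisor k Fk} (h : 𝔊.IsRdiv E Eb)
    (h' : 𝔊.IsRdiv E Eb') : Eb = Eb' := sorry

/-- criterion: one inclusion for one large `i` is enough -/
theorem isRdiv_of_le {E : Divisor K F} {Eb : Divisor k Fk} (hE : 0 ≤ E) (hEb : 0 ≤ Eb)
    (hdeg : dg Eb = dg E) {i : ℕ} (hi : 𝔊.Big (dg E) i)
    (hle : L (i • 𝔊.Mk - Eb) ≤ 𝔊.redSub (L (i • 𝔊.M - E))) : 𝔊.IsRdiv E Eb := sorry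

/-! ### D2 : file `Deuring/Add.lean` -/

theorem IsRdiv.add {E E' : Divisor K F} {Eb Eb' : Divisor k Fk} (h : 𝔊.IsRdiv E Eb)
    (h' : 𝔊.IsRdiv E' Eb') : 𝔊.IsRdiv (E + E') (Eb + Eb') := sorry

theorem isRdiv_zero : 𝔊.IsRdiv 0 0 := sorry

theorem IsRdiv.sum {J : Type*} (t : Finset J) {E : J → Divisor K F} {Eb : J → Divisor k Fk}
    (h : ∀ j ∈ t, 𝔊.IsRdiv (E j) (Eb j)) : 𝔊.IsRdiv (∑ j ∈ t, E j) (∑ j ∈ t, Eb j) := sorry

/-- the reduction of a place is a place -/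
theorem exists_isRdiv_pt (P : Place K F) : ∃ Q : Place k Fk, 𝔊.IsRdiv (pt P) (pt Q) := sorry

/-! ### D3 : file `Deuring/Principal.lean` -/

/-- the divisor of zeros of a section reduces to the divisor of zeros of its reduction -/
theorem isRdiv_zeros {i : ℕ} (hi : 𝔊.i₀ ≤ i) {a : F} {ab : Fk} (ha : a ∈ L (i • 𝔊.M))
    (hr : 𝔊.Red a ab) (h0 : ab ≠ 0) :
    𝔊.IsRdiv (divOf a + i • 𝔊.M) (divOf ab + i • 𝔊.Mk) := sorry

theorem isRdiv_M : 𝔊.IsRdiv 𝔊.M 𝔊.Mk := sorry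

/-- cancellation -/
theorem IsRdiv.of_add {E E' : Divisor K F} {Eb Eb' : Divisor k Fk} (hE : 0 ≤ E)
    (h' : 𝔊.IsRdiv E' Eb') (h : 𝔊.IsRdiv (E + E') (Eb + Eb')) : 𝔊.IsRdiv E Eb := sorry

/-- **linear equivalence is preserved** -/
theorem IsRdiv.linEquiv {E E' : Divisor K F} {Eb Eb' : Divisor k Fk} (h : 𝔊.IsRdiv E Eb)
    (h' : 𝔊.IsRdiv E' Eb') {y : F} (hy : y ≠ 0) (e : E - E' = divOf y) :
    ∃ yb : Fk, yb ≠ 0 ∧ Eb - Eb' = divOf yb := sorry

/-- **semicontinuity** -/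
theorem IsRdiv.ell_le {E : Divisor K F} {Eb : Divisor k Fk} (h : 𝔊.IsRdiv E Eb) :
    ell E ≤ ell Eb := sorry

/-! ### D5 : file `Deuring/Galois.lean` -/

theorem IsRdiv.smul_ine {E : Divisor K F} {Eb : Divisor k Fk} (h : 𝔊.IsRdiv E Eb)
    {g : SemilinearAut K F} (hg : g ∈ 𝔊.Γ) (hi : 𝔊.IsIne g) : 𝔊.IsRdiv (g • E) Eb := sorry

theorem exists_smul_dec {g : SemilinearAut K F} (hg : g ∈ 𝔊.Γ) (hd : 𝔊.IsDec g) :
    ∃ gb : SemilinearAut k Fk, ∀ (E : Divisor K F) (Eb : Divisor k Fk),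
      𝔊.IsRdiv E Eb → 𝔊.IsRdiv (g • E) (gb • Eb) := sorry

/-! ### D6 : file `Deuring/Rigid.lean` -/

/-- the fibre of `x` over `a` reduces to the fibre of `xk` over `res a` -/
theorem isRdiv_fibre (a : 𝔊.A) :
    𝔊.IsRdiv (divOf (𝔊.x - algebraMap K F (a : K)) + 𝔊.M)
      (divOf (𝔊.xk - algebraMap k Fk (𝔊.res a)) + 𝔊.Mk) := sorry

/-- **rigid lifts of places** -/
theorem exists_rigid_lift : ∃ U : Set (Place k Fk), Uᶜ.Finite ∧ ∀ Q ∈ U, ∃ P : Place K F,
    𝔊.IsRdiv (pt P) (pt Q) ∧ ∀ g ∈ 𝔊.Γ, 𝔊.IsIne g → g • P = P := sorry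

/-! ### D7 : file `Deuring/Adm.lean` -/

variable {X : Type*} [AddCommGroup X] (ι : X →+ Pic0 K F)

theorem exists_isEP {E₀ : Divisor K F} (hdeg : dg E₀ = gen K F) (P : X) : ∃ E, IsEP ι E₀ P E := sorry

theorem exists_isAdm [Finite X] : ∃ E₀, 𝔊.IsAdm ι E₀ := sorry

variable {𝔊 ι}

theorem IsAdm.isEP_EP {E₀ : Divisor K F} (h : 𝔊.IsAdm ι E₀) (P : X) :
    IsEP ι E₀ P (EP ι E₀ P) := sorry

theorem IsAdm.dg_EP {E₀ : Divisor K F} (h : 𝔊.IsAdm ι E₀) (P : X) :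
    dg (EP ι E₀ P) = gen K F := sorry

theorem IsAdm.eq_EP {E₀ : Divisor K F} (h : 𝔊.IsAdm ι E₀) {P : X} {E : Divisor K F}
    (hE : IsEP ι E₀ P E) : E = EP ι E₀ P := sorry

theorem IsAdm.smul {E₀ : Divisor K F} (h : 𝔊.IsAdm ι E₀) {g : SemilinearAut K F} (hg : g ∈ 𝔊.Γ)
    (hd : 𝔊.IsDec g) (hstab : ∀ P : X, ∃ P' : X, ι P' = g⁻¹ • ι P) : 𝔊.IsAdm ι (g • E₀) := sorry

theorem IsAdm.smul_EP {E₀ : Divisor K F} (h : 𝔊.IsAdm ι E₀) {g : SemilinearAut K F} (hg : g ∈ 𝔊.Γ)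
    (hd : 𝔊.IsDec g) (hstab : ∀ P : X, ∃ P' : X, ι P' = g⁻¹ • ι P) {P P' : X}
    (hP : ι P' = g • ι P) : EP ι (g • E₀) P' = g • EP ι E₀ P := sorry

end GRData

end Fermat.Agent.S19.KM
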