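import Fermat.Agent.S19.KM.GR.Defs
import Fermat.Agent.S19.KM.Geom.Defs
import Fermat.Agent.Lib.GoodRed.Main

/-!
# S19 / KM route: blueprint of block [G], abstract part

Every `sorry` is a task; prove it in the file named in the section header (same name, same
statement); never import this file from a landed file.
-/

set_option autoImplicit false

noncomputable section

namespace Fermat.Agent.S19.KM

open AlgebraicCurve Fermat.Agent.S24.FF Fermat.Agent.Lib.RR Module Submodule IntermediateField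

/-! ### Ga : file `Geom/Dict.lean` : the dictionary `L(i (x)_∞) = LL K x i` -/
section Ga
variable {K F : Type*} [Field K] [Field F] [Algebra K F]

theorem L_eq_LL [IsCurve K F] {x : F} (hx : Transcendental K x) [Algebra.IsSeparable K⟮x⟯ F]
    (i : ℕ) : L (i • poleDiv (K := K) x) = LL K x i := sorry

end Ga

/-! ### Gb : file `Geom/Descent.lean` : constant field extensions (Mathlib only) -/
section Gb
variable {K₀ K F₀ F : Type*} [Field K₀] [Field K] [Field F₀] [Field F]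
  [Algebra K₀ K] [Algebra K₀ F₀] [Algebra K F]

/-- if `K / K₀` is algebraic, the ring generated by `K` and `Φ(F₀)` is a field -/
theorem isCompositum_of_adjoin [Algebra.IsAlgebraic K₀ K] (Φ : F₀ →+* F)
    (hΦ : ∀ a : K₀, Φ (algebraMap K₀ F₀ a) = algebraMap K F (algebraMap K₀ K a))
    (h : IntermediateField.adjoin K (Set.range Φ) = ⊤) : IsCompositum K Φ := sorry

/-- the other form of linear disjointness -/
theorem IsLinDisj.linearIndependent {Φ : F₀ →+* F}
    (hΦ : ∀ a : K₀, Φ (algebraMap K₀ F₀ a) = algebraMap K F (algebraMap K₀ K a))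
    (h : IsLinDisj K₀ K Φ) {ι : Type*} {w : ι → F₀} (hw : LinearIndependent K₀ w) :
    LinearIndependent K (fun j => Φ (w j)) := sorry

/-- **descent of integrality** (trace argument) -/
theorem exists_decomp_isIntegral [Algebra.IsSeparable K₀ K] (Φ : F₀ →+* F)
    (hΦ : ∀ a : K₀, Φ (algebraMap K₀ F₀ a) = algebraMap K F (algebraMap K₀ K a))
    (hc : IsCompositum K Φ) (hd : IsLinDisj K₀ K Φ) (f : F) :
    ∃ (m : ℕ) (c : Fin m → K) (g : Fin m → F₀), f = ∑ j, c j • Φ (g j) ∧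
      ∀ y z : F₀, IsIntegral (Algebra.adjoin K {Φ y}) (Φ z * f) →
        ∀ j, IsIntegral (Algebra.adjoin K₀ {y}) (z * g j) := sorry

theorem map_mem_LL (Φ : F₀ →+* F)
    (hΦ : ∀ a : K₀, Φ (algebraMap K₀ F₀ a) = algebraMap K F (algebraMap K₀ K a))
    {x f : F₀} {i : ℕ} (hf : f ∈ LL K₀ x i) : Φ f ∈ LL K (Φ x) i := sorry

theorem LL_baseChange [Algebra.IsSeparable K₀ K] (Φ : F₀ →+* F)
    (hΦ : ∀ a : K₀, Φ (algebraMap K₀ F₀ a) = algebraMap K F (algebraMap K₀ K a))
    (hc : IsCompositum K Φ) (hd : IsLinDisj K₀ K Φ) (x : F₀) (i : ℕ) :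
    LL K (Φ x) i = span K (Φ '' (LL K₀ x i : Set F₀)) := sorry

theorem finite_LL_of_baseChange (Φ : F₀ →+* F)
    (hΦ : ∀ a : K₀, Φ (algebraMap K₀ F₀ a) = algebraMap K F (algebraMap K₀ K a))
    (hd : IsLinDisj K₀ K Φ) (x : F₀) (i : ℕ) [Module.Finite K (LL K (Φ x) i)] :
    Module.Finite K₀ (LL K₀ x i) := sorry

end Gb

/-! ### Gc : file `Geom/Lift.lean` (+ helper files `Geom/Lift/*`) : lifting over a discrete valuation
ring, in the setting of `Lib/GoodRed` -/
section Gc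
open Fermat.Agent.GoodRed

theorem exists_frames_LL (K : Type*) {O E F : Type*} [CommRing O] [IsDomain O]
    [IsDiscreteValuationRing O] [Field K] [CharZero K] [Algebra O K] [IsFractionRing O K]
    [Field E] [Algebra K E] [Algebra O E] [IsScalarTower O K E]
    [Field F] [Algebra E F] [FiniteDimensional E F] [Algebra K F] [IsScalarTower K E F]
    (ϖ : O) (hϖ : Irreducible ϖ) (x : E) (hx : Transcendental K x)
    (hgen : IntermediateField.adjoin K {x} = ⊤) (𝒟 : ValuationSubring F)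
    (hG : GaussData O ϖ 𝒟 x)
    (N0 : IsDedekindDomain (chart O F x ⧸ Ideal.span {unifChart O F ϖ x}))
    (N1 : IsDedekindDomain (chart O F x⁻¹ ⧸ Ideal.span {unifChart O F ϖ x⁻¹}))
    (hfin : ∀ i, Module.Finite K (LL K (algebraMap E F x) i))
    {k₀ Fk₀ : Type*} [Field k₀] [Field Fk₀] [Algebra k₀ Fk₀]
    (res : O →+* k₀) (red : 𝒟 →+* Fk₀) (hres : Function.Surjective res)
    (hred : Function.Surjective red)
    (hcomp : ∀ a : O, red ⟨algebraMap E F (algebraMap O E a), hG.algebraMap_mem a⟩ =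
      algebraMap k₀ Fk₀ (res a))
    (hxD : algebraMap E F x ∈ 𝒟) :
    ∃ i₀ : ℕ, ∀ i, i₀ ≤ i → ∃ (m : ℕ) (v : Fin m → 𝒟),
      span K (Set.range fun j => ((v j : 𝒟) : F)) = LL K (algebraMap E F x) i ∧
      LinearIndependent k₀ (fun j => red (v j)) ∧
      span k₀ (Set.range fun j => red (v j)) = LL k₀ (red ⟨algebraMap E F x, hxD⟩) i := sorry

end Gc

/-! ### Gd : file `Geom/Assemble.lean` : assembly -/
section Gd
variable {K F k Fk : Type*} [Field K] [Field F] [Algebra K F] [Field k] [Field Fk] [Algebra k Fk]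

/-- `deg (x)_∞ = deg (xk)_∞` follows from the existence of the frames (Riemann on both sides) -/
theorem dg_poleDiv_eq_of_frames [IsCurve K F] [IsCurve k Fk] (R : RedData K F k Fk) {x : F}
    {xk : Fk} (hx : Transcendental K x) (hxk : Transcendental k xk) (i₀ : ℕ)
    (h : ∀ i, i₀ ≤ i → ∃ (m : ℕ) (v : Fin m → F) (vb : Fin m → Fk),
      R.IsFrame v vb ∧ span K (Set.range v) = L (i • poleDiv (K := K) x) ∧
        span k (Set.range vb) = L (i • poleDiv (K := k) xk)) :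
    dg (poleDiv (K := K) x) = dg (poleDiv (K := k) xk) := sorry

/-- frames over the small fields give fixed frames over the big fields -/
theorem exists_frame_of_rat [IsCurve K F] [IsCurve k Fk] (R : RedData K F k Fk)
    {K₀ F₀ k₀ Fk₀ : Type*} [Field K₀] [Field F₀] [Field k₀] [Field Fk₀]
    [Algebra K₀ K] [Algebra K₀ F₀] [Algebra k₀ k] [Algebra k₀ Fk₀]
    [Algebra.IsSeparable K₀ K] [Algebra.IsSeparable k₀ k]
    (Φ : F₀ →+* F) (Ψ : Fk₀ →+* Fk)
    (hΦ : ∀ a : K₀, Φ (algebraMap K₀ F₀ a) = algebraMap K F (algebraMap K₀ K a))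
    (hΨ : ∀ a : k₀, Ψ (algebraMap k₀ Fk₀ a) = algebraMap k Fk (algebraMap k₀ k a))
    (hcK : IsCompositum K Φ) (hdK : IsLinDisj K₀ K Φ)
    (hck : IsCompositum k Ψ) (hdk : IsLinDisj k₀ k Ψ)
    (𝒟 : ValuationSubring F₀) (red₀ : 𝒟 →+* Fk₀)
    (hred : ∀ f : 𝒟, R.Red (Φ (f : F₀)) (Ψ (red₀ f)))
    (x₀ : 𝒟) (hx : Transcendental K (Φ (x₀ : F₀))) (hxk : Transcendental k (Ψ (red₀ x₀)))
    [Algebra.IsSeparable K⟮Φ (x₀ : F₀)⟯ F] [Algebra.IsSeparable k⟮Ψ (red₀ x₀)⟯ Fk]
    (Γ : Subgroup (SemilinearAut K F)) (hΓ : ∀ g ∈ Γ, ∀ f : F₀, g • Φ f = Φ f) (i₀ : ℕ)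
    (h : ∀ i, i₀ ≤ i → ∃ (m : ℕ) (v : Fin m → 𝒟),
      span K₀ (Set.range fun j => ((v j : 𝒟) : F₀)) = LL K₀ (x₀ : F₀) i ∧
      LinearIndependent k₀ (fun j => red₀ (v j)) ∧
      span k₀ (Set.range fun j => red₀ (v j)) = LL k₀ (red₀ x₀) i) :
    ∀ i, i₀ ≤ i → ∃ (m : ℕ) (v : Fin m → F) (vb : Fin m → Fk),
      R.IsFrame v vb ∧ span K (Set.range v) = L (i • poleDiv (K := K) (Φ (x₀ : F₀))) ∧
        span k (Set.range vb) = L (i • poleDiv (K := k) (Ψ (red₀ x₀))) ∧
        ∀ g ∈ Γ, ∀ j, g • v j = v j := sorry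

end Gd

end Fermat.Agent.S19.KM
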