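import Fermat.Agent.S19.KM.Hopf.Defs
import Fermat.Agent.S19.KM.WIP.RedBP

/-!
# S19 / KM route: blueprint of the abstract part of layer [H]  (Mathlib only)

Every `sorry` is a task; prove it in the file named in the section header (same name, same
statement, namespace `Fermat.Agent.S19.KM.RedData`); never import this file from a landed file.
-/

set_option autoImplicit false

noncomputable section

namespace Fermat.Agent.S19.KM.RedData

open Module Submodule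

variable {K F k Fk : Type*} [Field K] [Field F] [Algebra K F] [Field k] [Field Fk] [Algebra k Fk]
variable {R : RedData K F k Fk} {ι : Type*} [Fintype ι] [DecidableEq ι] {X : Type*}
variable {v : ι → F} {vb : ι → Fk} {𝒱 : X → Submodule K F}

/-! ### H0 : file `Hopf/Basic.lean` -/

theorem idem_mem_HA (P₀ : X) : R.idem 𝒱 P₀ ∈ R.HA v 𝒱 := sorry

theorem genFun_mem_HA {P₀ : X} {S : Finset ι} (hS : ∃ u, R.IsGraph v S u (𝒱 P₀)) {b j : ι}
    (hb : b ∈ S) (hj : j ∉ S) : R.genFun v 𝒱 P₀ S b j ∈ R.HA v 𝒱 := sorry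

/-- every element of `HA` has constant reduction on every class -/
theorem res_eq_of_mem_HA (h : R.IsFrame v vb) (h𝒱 : ∀ P, 𝒱 P ≤ span K (Set.range v))
    {φ : X → R.A} (hφ : φ ∈ R.HA v 𝒱) {P Q : X} (hPQ : R.redSub (𝒱 P) = R.redSub (𝒱 Q)) :
    R.res (φ P) = R.res (φ Q) := sorry

/-- the generators separate points -/
theorem exists_gens_ne (h : R.IsFrame v vb) (h𝒱 : ∀ P, 𝒱 P ≤ span K (Set.range v))
    (hinj : Function.Injective 𝒱) {P Q : X} (hPQ : P ≠ Q) : ∃ φ ∈ R.gens v 𝒱, φ P ≠ φ Q := sorry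

/-- the span of `prodSet H` is closed under multiplication and contains the constants, hence the set
of `φ` with `φ ∘ (+) ∈ span (prodSet H)` is a subalgebra -/
theorem comul_mem_of_gens [AddCommGroup X] (H : Subalgebra R.A (X → R.A)) (G : Set (X → R.A))
    (hG : ∀ φ ∈ G, (fun q : X × X => φ (q.1 + q.2)) ∈ span R.A (R.prodSet H)) :
    ∀ φ ∈ Algebra.adjoin R.A G, (fun q : X × X => φ (q.1 + q.2)) ∈ span R.A (R.prodSet H) := sorry

/-! ### H1 : file `Hopf/Local.lean` : the ring `𝒮` of a pair of classes -/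

/-- the subalgebra of functions on `Ω ⊆ X × X` generated by `a(P)` and `b(Q)`, `a b ∈ H` -/
def pairAlg (H : Subalgebra R.A (X → R.A)) (Ω : Set (X × X)) : Subalgebra R.A (Ω → R.A) :=
  Algebra.adjoin R.A ({s | ∃ a ∈ H, s = fun ω => a ω.1.1} ∪ {s | ∃ b ∈ H, s = fun ω => b ω.1.2})

/-- every element of `pairAlg` is the restriction of an element of `span (prodSet H)` -/
theorem exists_of_mem_pairAlg (H : Subalgebra R.A (X → R.A)) (Ω : Set (X × X)) {s : Ω → R.A}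
    (hs : s ∈ pairAlg H Ω) : ∃ Φ ∈ span R.A (R.prodSet H), ∀ ω : Ω, s ω = Φ ω.1 := sorry

/-- the product of two classes -/
def classProd (R : RedData K F k Fk) (𝒱 : X → Submodule K F) (P₀ Q₀ : X) : Set (X × X) :=
  {q | R.redSub (𝒱 q.1) = R.redSub (𝒱 P₀) ∧ R.redSub (𝒱 q.2) = R.redSub (𝒱 Q₀)}

theorem constRed_pairAlg (h : R.IsFrame v vb) (h𝒱 : ∀ P, 𝒱 P ≤ span K (Set.range v)) (P₀ Q₀ : X) :
    R.ConstRed (pairAlg (R.HA v 𝒱) (classProd R 𝒱 P₀ Q₀)) := sorry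

theorem isReg_fst (h : R.IsFrame v vb) (h𝒱 : ∀ P, 𝒱 P ≤ span K (Set.range v)) (P₀ Q₀ : X) :
    R.IsReg (pairAlg (R.HA v 𝒱) (classProd R 𝒱 P₀ Q₀)) v vb (fun ω => 𝒱 ω.1.1) := sorry

theorem isReg_snd (h : R.IsFrame v vb) (h𝒱 : ∀ P, 𝒱 P ≤ span K (Set.range v)) (P₀ Q₀ : X) :
    R.IsReg (pairAlg (R.HA v 𝒱) (classProd R 𝒱 P₀ Q₀)) v vb (fun ω => 𝒱 ω.1.2) := sorry

/-! ### H2 : file `Hopf/Comul.lean` -/

/-- on a product of two classes a generator composed with the addition lies in `pairAlg` -/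
theorem gen_add_mem_pairAlg [AddCommGroup X] [Finite X] (h : R.IsFrame v vb)
    (h𝒱 : ∀ P, 𝒱 P ≤ span K (Set.range v)) (hadd : R.AddReg v vb 𝒱) (P₀ Q₀ : X)
    {φ : X → R.A} (hφ : φ ∈ R.gens v 𝒱) :
    (fun ω : classProd R 𝒱 P₀ Q₀ => φ (ω.1.1 + ω.1.2)) ∈
      pairAlg (R.HA v 𝒱) (classProd R 𝒱 P₀ Q₀) := sorry

/-- **`HA` is closed under comultiplication.** -/
theorem comul_mem [AddCommGroup X] [Finite X] (h : R.IsFrame v vb)
    (h𝒱 : ∀ P, 𝒱 P ≤ span K (Set.range v)) (hadd : R.AddReg v vb 𝒱) :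
    ∀ φ ∈ R.HA v 𝒱, (fun q : X × X => φ (q.1 + q.2)) ∈ span R.A (R.prodSet (R.HA v 𝒱)) := sorry

end Fermat.Agent.S19.KM.RedData
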