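import Fermat.Agent.S19.KM.Hopf.Defs
import Fermat.Agent.S19.KM.WIP.DeuringBP
import Fermat.Agent.S19.KM.WIP.HopfBP

/-!
# S19 / KM route: blueprint of the geometric part of layer [H]: the addition law is regular

Every `sorry` is a task; prove it in the file named in the section header (same name, same
statement); never import this file from a landed file.
-/

set_option autoImplicit false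

noncomputable section

namespace Fermat.Agent.S19.KM

open AlgebraicCurve Fermat.Agent.S24.FF Fermat.Agent.Lib.RR Module Submodule

variable {K F k Fk : Type*} [Field K] [Field F] [Algebra K F] [Field k] [Field Fk] [Algebra k Fk]

/-! ### K0 : file `Red/ChangeFrame.lean` (Mathlib only) -/

/-- regularity does not depend on the frame of the ambient space -/
theorem RedData.IsReg.change_frame {R : RedData K F k Fk} {Ω ι ι' : Type*} [Fintype ι] [Fintype ι']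
    {v : ι → F} {vb : ι → Fk} {v' : ι' → F} {vb' : ι' → Fk} (h : R.IsFrame v vb)
    (h' : R.IsFrame v' vb') (e : span K (Set.range v) = span K (Set.range v'))
    {𝒮 : Subalgebra R.A (Ω → R.A)} {W : Ω → Submodule K F} (hW : R.IsReg 𝒮 v vb W) :
    R.IsReg 𝒮 v' vb' W := sorry

variable [IsCurve K F] [IsCurve k Fk] (𝔊 : GRData K F k Fk)

namespace GRData

variable {Ω : Type*}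

/-- `W` is an `𝒮`-regular family of subspaces of `L(iM)` -/
def Reg (𝒮 : Subalgebra 𝔊.A (Ω → 𝔊.A)) (i : ℕ) (W : Ω → Submodule K F) : Prop :=
  ∃ (m : ℕ) (v : Fin m → F) (vb : Fin m → Fk), 𝔊.IsFrame v vb ∧
    span K (Set.range v) = L (i • 𝔊.M) ∧ 𝔊.IsReg 𝒮 v vb W

variable {𝔊} {𝒮 : Subalgebra 𝔊.A (Ω → 𝔊.A)}

/-! ### K1 : file `Key/Reg.lean` : the calculus of `Reg` -/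

theorem Reg.isReg {i : ℕ} {W : Ω → Submodule K F} (h : 𝔊.Reg 𝒮 i W) {ι : Type*} [Fintype ι]
    {v : ι → F} {vb : ι → Fk} (hv : 𝔊.IsFrame v vb) (e : span K (Set.range v) = L (i • 𝔊.M)) :
    𝔊.IsReg 𝒮 v vb W := sorry

theorem Reg.const (𝒮 : Subalgebra 𝔊.A (Ω → 𝔊.A)) {i : ℕ} (hi : 𝔊.i₀ ≤ i) {W : Submodule K F}
    (hW : W ≤ L (i • 𝔊.M)) : 𝔊.Reg 𝒮 i (fun _ => W) := sorry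

theorem Reg.mul (hc : 𝔊.ConstRed 𝒮) {i j : ℕ} (hi : 𝔊.i₀ ≤ i) (hj : 𝔊.i₀ ≤ j)
    {W₁ W₂ : Ω → Submodule K F} (h₁ : 𝔊.Reg 𝒮 i W₁) (h₂ : 𝔊.Reg 𝒮 j W₂)
    (hdim : ∀ ω, finrank K (W₁ ω * W₂ ω : Submodule K F) ≤
      finrank k (𝔊.redSub (W₁ ω) * 𝔊.redSub (W₂ ω) : Submodule k Fk)) :
    𝔊.Reg 𝒮 (i + j) (fun ω => W₁ ω * W₂ ω) ∧
      ∀ ω, 𝔊.redSub (W₁ ω * W₂ ω) = 𝔊.redSub (W₁ ω) * 𝔊.redSub (W₂ ω) := sorry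

theorem Reg.colon [Finite Ω] (hc : 𝔊.ConstRed 𝒮) {i j : ℕ} (hi : 𝔊.i₀ ≤ i) (hj : 𝔊.i₀ ≤ j)
    {W₂ W₃ : Ω → Submodule K F} (h₂ : 𝔊.Reg 𝒮 j W₂) (h₃ : 𝔊.Reg 𝒮 (i + j) W₃)
    (hdim : ∀ ω, finrank k (KM.colon (L (i • 𝔊.Mk)) (𝔊.redSub (W₂ ω)) (𝔊.redSub (W₃ ω))) ≤
      finrank K (KM.colon (L (i • 𝔊.M)) (W₂ ω) (W₃ ω))) :
    𝔊.Reg 𝒮 i (fun ω => KM.colon (L (i • 𝔊.M)) (W₂ ω) (W₃ ω)) ∧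
      ∀ ω, 𝔊.redSub (KM.colon (L (i • 𝔊.M)) (W₂ ω) (W₃ ω)) =
        KM.colon (L (i • 𝔊.Mk)) (𝔊.redSub (W₂ ω)) (𝔊.redSub (W₃ ω)) := sorry

/-- a regular nowhere vanishing section -/
theorem Reg.exists_section {i : ℕ} {W : Ω → Submodule K F} (h : 𝔊.Reg 𝒮 i W)
    (h0 : ∀ ω, W ω ≠ ⊥) : ∃ (a : Ω → F) (ab : Ω → Fk), 𝔊.Reg 𝒮 i (fun ω => K ∙ a ω) ∧
      ∀ ω, a ω ∈ W ω ∧ 𝔊.Red (a ω) (ab ω) ∧ ab ω ≠ 0 ∧ 𝔊.redSub (K ∙ a ω) = k ∙ ab ω := sorry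

theorem Reg.exists_generator {i : ℕ} {W : Ω → Submodule K F} (h : 𝔊.Reg 𝒮 i W)
    (h1 : ∀ ω, finrank K (W ω) = 1) : ∃ (a : Ω → F) (ab : Ω → Fk),
      ∀ ω, W ω = K ∙ a ω ∧ 𝔊.Red (a ω) (ab ω) ∧ ab ω ≠ 0 ∧ 𝔊.redSub (W ω) = k ∙ ab ω := sorry

/-- multiplication of a regular family by a regular line -/
theorem Reg.line_mul (hc : 𝔊.ConstRed 𝒮) {i j : ℕ} (hi : 𝔊.i₀ ≤ i) (hj : 𝔊.i₀ ≤ j) {a : Ω → F}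
    {ab : Ω → Fk} (ha : 𝔊.Reg 𝒮 i (fun ω => K ∙ a ω))
    (hab : ∀ ω, ab ω ≠ 0 ∧ 𝔊.redSub (K ∙ a ω) = k ∙ ab ω) {W : Ω → Submodule K F}
    (hW : 𝔊.Reg 𝒮 j W) :
    𝔊.Reg 𝒮 (i + j) (fun ω => (K ∙ a ω) * W ω) ∧
      ∀ ω, 𝔊.redSub ((K ∙ a ω) * W ω) = (k ∙ ab ω) * 𝔊.redSub (W ω) := sorry

/-! ### K2 : file `Key/Steps.lean` : the three identities in families -/

section Steps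
variable [Finite Ω] {m : ℕ} {E₀ : Divisor K F} {E₀b : Divisor k Fk}
  {E₁ E₂ E₃ : Ω → Divisor K F} {E₁b E₂b E₃b : Ω → Divisor k Fk}

/-- step (f1) -/
theorem step_one (hc : 𝔊.ConstRed 𝒮) (hm : 𝔊.Big (gen K F) m)
    (h₁ : ∀ ω, 𝔊.IsRdiv (E₁ ω) (E₁b ω)) (d₁ : ∀ ω, dg (E₁ ω) = gen K F)
    (h₂ : ∀ ω, 𝔊.IsRdiv (E₂ ω) (E₂b ω)) (d₂ : ∀ ω, dg (E₂ ω) = gen K F)
    (r₁ : 𝔊.Reg 𝒮 m (fun ω => L (m • 𝔊.M - E₁ ω))) (r₂ : 𝔊.Reg 𝒮 m (fun ω => L (m • 𝔊.M - E₂ ω))) :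
    𝔊.Reg 𝒮 (m + (m + 2 * m)) (fun ω => L (4 • (m • 𝔊.M) - E₁ ω - E₂ ω)) ∧
      ∀ ω, 𝔊.redSub (L (4 • (m • 𝔊.M) - E₁ ω - E₂ ω)) = L (4 • (m • 𝔊.Mk) - E₁b ω - E₂b ω) := sorry

/-- the section `a = a' a''` -/
theorem step_section (hc : 𝔊.ConstRed 𝒮) (hm : 𝔊.Big (gen K F) m)
    (h₁ : ∀ ω, 𝔊.IsRdiv (E₁ ω) (E₁b ω)) (d₁ : ∀ ω, dg (E₁ ω) = gen K F)
    (h₂ : ∀ ω, 𝔊.IsRdiv (E₂ ω) (E₂b ω)) (d₂ : ∀ ω, dg (E₂ ω) = gen K F)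
    (r₁ : 𝔊.Reg 𝒮 m (fun ω => L (m • 𝔊.M - E₁ ω))) (r₂ : 𝔊.Reg 𝒮 m (fun ω => L (m • 𝔊.M - E₂ ω))) :
    ∃ (a : Ω → F) (ab : Ω → Fk), 𝔊.Reg 𝒮 (m + m) (fun ω => K ∙ a ω) ∧
      ∀ ω, a ω ≠ 0 ∧ a ω ∈ L (2 • (m • 𝔊.M) - E₁ ω - E₂ ω) ∧ ab ω ≠ 0 ∧
        ab ω ∈ L (2 • (m • 𝔊.Mk) - E₁b ω - E₂b ω) ∧ 𝔊.redSub (K ∙ a ω) = k ∙ ab ω := sorry

/-- step (f2): the line `a L(E₁ + E₂ - E₀)` is regular -/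
theorem step_two (hc : 𝔊.ConstRed 𝒮) (hm : 𝔊.Big (gen K F) m)
    (h₀ : 𝔊.IsRdiv E₀ E₀b) (d₀ : dg E₀ = gen K F)
    (h₁ : ∀ ω, 𝔊.IsRdiv (E₁ ω) (E₁b ω)) (d₁ : ∀ ω, dg (E₁ ω) = gen K F)
    (h₂ : ∀ ω, 𝔊.IsRdiv (E₂ ω) (E₂b ω)) (d₂ : ∀ ω, dg (E₂ ω) = gen K F)
    (hone : ∀ ω, ell (E₁b ω + E₂b ω - E₀b) = 1)
    (rY : 𝔊.Reg 𝒮 (m + (m + 2 * m)) (fun ω => L (4 • (m • 𝔊.M) - E₁ ω - E₂ ω)))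
    (eY : ∀ ω, 𝔊.redSub (L (4 • (m • 𝔊.M) - E₁ ω - E₂ ω)) = L (4 • (m • 𝔊.Mk) - E₁b ω - E₂b ω))
    {a : Ω → F} {ab : Ω → Fk} (ra : 𝔊.Reg 𝒮 (m + m) (fun ω => K ∙ a ω))
    (ha : ∀ ω, a ω ≠ 0 ∧ a ω ∈ L (2 • (m • 𝔊.M) - E₁ ω - E₂ ω) ∧ ab ω ≠ 0 ∧
        ab ω ∈ L (2 • (m • 𝔊.Mk) - E₁b ω - E₂b ω) ∧ 𝔊.redSub (K ∙ a ω) = k ∙ ab ω) :
    𝔊.Reg 𝒮 (m + m) (fun ω => (K ∙ a ω) * L (E₁ ω + E₂ ω - E₀)) ∧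
      ∀ ω, ell (E₁ ω + E₂ ω - E₀) = 1 ∧
        𝔊.redSub ((K ∙ a ω) * L (E₁ ω + E₂ ω - E₀)) = (k ∙ ab ω) * L (E₁b ω + E₂b ω - E₀b) := sorry

/-- step (f3) -/
theorem step_three (hc : 𝔊.ConstRed 𝒮) (hm : 𝔊.Big (gen K F) m)
    (h₀ : 𝔊.IsRdiv E₀ E₀b) (d₀ : dg E₀ = gen K F)
    (h₃ : ∀ ω, 𝔊.IsRdiv (E₃ ω) (E₃b ω)) (d₃ : ∀ ω, dg (E₃ ω) = gen K F)
    {f₀ : Ω → F} (hf₀ : ∀ ω, f₀ ω ≠ 0 ∧ divOf (f₀ ω) = E₃ ω + E₀ - E₁ ω - E₂ ω)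
    {f₀b : Ω → Fk} (hf₀b : ∀ ω, f₀b ω ≠ 0 ∧ divOf (f₀b ω) = E₃b ω + E₀b - E₁b ω - E₂b ω)
    (rY : 𝔊.Reg 𝒮 (m + (m + 2 * m)) (fun ω => L (4 • (m • 𝔊.M) - E₁ ω - E₂ ω)))
    (eY : ∀ ω, 𝔊.redSub (L (4 • (m • 𝔊.M) - E₁ ω - E₂ ω)) = L (4 • (m • 𝔊.Mk) - E₁b ω - E₂b ω))
    {a : Ω → F} {ab : Ω → Fk} (ra : 𝔊.Reg 𝒮 (m + m) (fun ω => K ∙ a ω))
    (ha : ∀ ω, a ω ≠ 0 ∧ ab ω ≠ 0 ∧ 𝔊.redSub (K ∙ a ω) = k ∙ ab ω)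
    (rb : 𝔊.Reg 𝒮 (m + m) (fun ω => K ∙ (a ω * f₀ ω)))
    (eb : ∀ ω, 𝔊.redSub (K ∙ (a ω * f₀ ω)) = k ∙ (ab ω * f₀b ω)) :
    𝔊.Reg 𝒮 m (fun ω => L (m • 𝔊.M - E₃ ω)) := sorry

/-- **the addition law in families** -/
theorem reg_add (hc : 𝔊.ConstRed 𝒮) (hm : 𝔊.Big (gen K F) m)
    (h₀ : 𝔊.IsRdiv E₀ E₀b) (d₀ : dg E₀ = gen K F)
    (h₁ : ∀ ω, 𝔊.IsRdiv (E₁ ω) (E₁b ω)) (d₁ : ∀ ω, dg (E₁ ω) = gen K F)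
    (h₂ : ∀ ω, 𝔊.IsRdiv (E₂ ω) (E₂b ω)) (d₂ : ∀ ω, dg (E₂ ω) = gen K F)
    (h₃ : ∀ ω, 𝔊.IsRdiv (E₃ ω) (E₃b ω)) (hone : ∀ ω, ell (E₃b ω) = 1)
    (hlin : ∀ ω, ∃ f₀ : F, f₀ ≠ 0 ∧ divOf f₀ = E₃ ω + E₀ - E₁ ω - E₂ ω)
    (r₁ : 𝔊.Reg 𝒮 m (fun ω => L (m • 𝔊.M - E₁ ω))) (r₂ : 𝔊.Reg 𝒮 m (fun ω => L (m • 𝔊.M - E₂ ω))) :
    𝔊.Reg 𝒮 m (fun ω => L (m • 𝔊.M - E₃ ω)) := sorry

end Steps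

/-! ### K3 : file `Key/AddReg.lean` -/

variable {X : Type*} [AddCommGroup X] [Finite X] {ι : X →+ Pic0 K F}

theorem VV_le {E₀ : Divisor K F} (h : 𝔊.IsAdm ι E₀) (m : ℕ) (P : X) :
    𝔊.VV ι E₀ m P ≤ L (m • 𝔊.M) := sorry

theorem VV_injective {E₀ : Divisor K F} (h : 𝔊.IsAdm ι E₀) (hι : Function.Injective ι) {m : ℕ}
    (hm : 𝔊.Big (gen K F) m) : Function.Injective (𝔊.VV ι E₀ m) := sorry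

/-- **KEY** -/
theorem addReg {E₀ : Divisor K F} (h : 𝔊.IsAdm ι E₀) {m : ℕ} (hm : 𝔊.Big (gen K F) m)
    {J : Type*} [Fintype J] [DecidableEq J] {v : J → F} {vb : J → Fk} (hv : 𝔊.IsFrame v vb)
    (e : span K (Set.range v) = L (m • 𝔊.M)) : 𝔊.AddReg v vb (𝔊.VV ι E₀ m) := sorry

end GRData

end Fermat.Agent.S19.KM
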