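import Fermat.Agent.S19.KM.Geom.Lift.Defs

/-!
# S19 / KM route: blueprint of section Gc (`exists_frames_LL`), sub-architect helper120

Every `sorry` is a task; prove it in the file named in the section header (same name, same
statement, namespace `Fermat.Agent.S19.KM.Lift`); never import this file from a landed file.

Notation: `X = algebraMap E F x`, `ϖF = algebraMap E F (algebraMap O E ϖ)`, `B₁ = chart O F x`,
`B₂ = chart O F x⁻¹`, `xb = red ⟨X, hxD⟩`.
-/

set_option autoImplicit false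

noncomputable section

namespace Fermat.Agent.S19.KM.Lift

open Fermat.Agent.GoodRed Polynomial Submodule

variable {O K E F : Type*} [CommRing O] [IsDomain O] [IsDiscreteValuationRing O]
  [Field K] [CharZero K] [Algebra O K] [IsFractionRing O K]
  [Field E] [Algebra K E] [Algebra O E] [IsScalarTower O K E]
  [Field F] [Algebra E F] [FiniteDimensional E F]
  {k₀ Fk₀ : Type*} [Field k₀] [Field Fk₀] [Algebra k₀ Fk₀]

/-! ### L0 : file `Geom/Lift/Ker.lean` : kernels of `red`, `res`; `red` of polynomials in `x` -/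
section L0

theorem red_eq_zero_iff {ϖ : O} {x : E} {𝒟 : ValuationSubring F} (hG : GaussData O ϖ 𝒟 x)
    (red : 𝒟 →+* Fk₀) (hred : Function.Surjective red) (y : 𝒟) :
    red y = 0 ↔ ∃ w ∈ 𝒟, (y : F) = algebraMap E F (algebraMap O E ϖ) * w := sorry

theorem res_eq_zero_iff {ϖ : O} (hϖ : Irreducible ϖ) (res : O →+* k₀)
    (hres : Function.Surjective res) (a : O) : res a = 0 ↔ ϖ ∣ a := sorry

theorem var_mem {ϖ : O} {x : E} {𝒟 : ValuationSubring F} (hG : GaussData O ϖ 𝒟 x) :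
    algebraMap E F x ∈ 𝒟 := sorry

theorem inv_var_mem {ϖ : O} {x : E} {𝒟 : ValuationSubring F} (hG : GaussData O ϖ 𝒟 x) :
    algebraMap E F x⁻¹ ∈ 𝒟 := sorry

theorem red_inv_var {x : E} {𝒟 : ValuationSubring F} (red : 𝒟 →+* Fk₀)
    (hxD : algebraMap E F x ∈ 𝒟) (hxD' : algebraMap E F x⁻¹ ∈ 𝒟) :
    red ⟨algebraMap E F x⁻¹, hxD'⟩ = (red ⟨algebraMap E F x, hxD⟩)⁻¹ := sorry

theorem red_var_ne_zero {ϖ : O} {x : E} {𝒟 : ValuationSubring F} (hG : GaussData O ϖ 𝒟 x)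
    (red : 𝒟 →+* Fk₀) (hxD : algebraMap E F x ∈ 𝒟) : red ⟨algebraMap E F x, hxD⟩ ≠ 0 := sorry

theorem aeval_mem {ϖ : O} {x : E} {𝒟 : ValuationSubring F} (hG : GaussData O ϖ 𝒟 x) (p : O[X]) :
    algebraMap E F (aeval x p) ∈ 𝒟 := sorry

theorem red_aeval {ϖ : O} {x : E} {𝒟 : ValuationSubring F} (hG : GaussData O ϖ 𝒟 x)
    (res : O →+* k₀) (red : 𝒟 →+* Fk₀)
    (hcomp : ∀ a : O, red ⟨algebraMap E F (algebraMap O E a), hG.algebraMap_mem a⟩ =
      algebraMap k₀ Fk₀ (res a))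
    (hxD : algebraMap E F x ∈ 𝒟) (p : O[X]) :
    red ⟨algebraMap E F (aeval x p), aeval_mem hG p⟩ =
      aeval (red ⟨algebraMap E F x, hxD⟩) (p.map res) := sorry

end L0

/-! ### L1 : file `Geom/Lift/RedInt.lean` : the reduction of `B₁` is integral over `k₀[xb]` -/
section L1

theorem isIntegral_red_of_mem_chart {ϖ : O} {x : E} {𝒟 : ValuationSubring F}
    (hG : GaussData O ϖ 𝒟 x) (res : O →+* k₀) (red : 𝒟 →+* Fk₀)
    (hcomp : ∀ a : O, red ⟨algebraMap E F (algebraMap O E a), hG.algebraMap_mem a⟩ =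
      algebraMap k₀ Fk₀ (res a))
    (hxD : algebraMap E F x ∈ 𝒟) (b : 𝒟) (hb : (b : F) ∈ chart O F x) :
    IsIntegral (Algebra.adjoin k₀ {red ⟨algebraMap E F x, hxD⟩}) (red b) := sorry

end L1

/-! ### L2 : file `Geom/Lift/Nor.lean` : [NOR] the reduction of `B₁` is integrally closed -/
section L2

theorem exists_red_eq_of_isIntegral (K : Type*) [Field K] [CharZero K] [Algebra O K]
    [IsFractionRing O K] [Algebra K E] [IsScalarTower O K E]
    (ϖ : O) (hϖ : Irreducible ϖ) (x : E) (hx : Transcendental K x)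
    (hgen : IntermediateField.adjoin K {x} = ⊤) (𝒟 : ValuationSubring F)
    (hG : GaussData O ϖ 𝒟 x)
    (N0 : IsDedekindDomain (chart O F x ⧸ Ideal.span {unifChart O F ϖ x}))
    (res : O →+* k₀) (red : 𝒟 →+* Fk₀) (hres : Function.Surjective res)
    (hred : Function.Surjective red)
    (hcomp : ∀ a : O, red ⟨algebraMap E F (algebraMap O E a), hG.algebraMap_mem a⟩ =
      algebraMap k₀ Fk₀ (res a))
    (hxD : algebraMap E F x ∈ 𝒟) {fb : Fk₀}
    (hfb : IsIntegral (Algebra.adjoin k₀ {red ⟨algebraMap E F x, hxD⟩}) fb) :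
    ∃ b : 𝒟, (b : F) ∈ chart O F x ∧ red b = fb := sorry

end L2

/-! ### L3 : file `Geom/Lift/Decomp.lean` : `B₂[x] = B₁ + xⁱ B₂` for `i` large -/
section L3

theorem exists_decomp (K : Type*) [Field K] [CharZero K] [Algebra O K]
    [IsFractionRing O K] [Algebra K E] [IsScalarTower O K E]
    (x : E) (hx : Transcendental K x) (hgen : IntermediateField.adjoin K {x} = ⊤) :
    ∃ i₀ : ℕ, ∀ i, i₀ ≤ i → ∀ (w : F) (s : ℕ), algebraMap E F x⁻¹ ^ s * w ∈ chart O F x⁻¹ →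
      ∃ c₁ ∈ chart O F x, ∃ c₂ ∈ chart O F x⁻¹, w = c₁ + algebraMap E F x ^ i * c₂ := sorry

end L3

/-! ### L4 : file `Geom/Lift/Generic.lean` : `Λ_i` and `LL K X i`; saturation; `red Λ_i ⊆ LL k₀ xb i` -/
section L4

theorem mem_LL_of_mem (K : Type*) [Field K] [Algebra O K] [Algebra K E] [IsScalarTower O K E]
    [Algebra K F] [IsScalarTower K E F] {x : E} {i : ℕ} {f : F} (h₁ : f ∈ chart O F x)
    (h₂ : algebraMap E F x⁻¹ ^ i * f ∈ chart O F x⁻¹) : f ∈ LL K (algebraMap E F x) i := sorry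

theorem exists_pow_mul_mem_of_mem_LL [Algebra K F] [IsScalarTower K E F] {ϖ : O}
    (hϖ : Irreducible ϖ) {x : E} {i : ℕ} {f : F} (hf : f ∈ LL K (algebraMap E F x) i) :
    ∃ k : ℕ, algebraMap E F (algebraMap O E ϖ) ^ k * f ∈ chart O F x ∧
      algebraMap E F x⁻¹ ^ i * (algebraMap E F (algebraMap O E ϖ) ^ k * f) ∈ chart O F x⁻¹ := sorry

theorem saturated (K : Type*) [Field K] [CharZero K] [Algebra O K]
    [IsFractionRing O K] [Algebra K E] [IsScalarTower O K E]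
    (ϖ : O) (hϖ : Irreducible ϖ) (x : E) (hx : Transcendental K x)
    (hgen : IntermediateField.adjoin K {x} = ⊤) (𝒟 : ValuationSubring F)
    (hG : GaussData O ϖ 𝒟 x) {i : ℕ} {w : F} (hw : w ∈ 𝒟)
    (h₁ : algebraMap E F (algebraMap O E ϖ) * w ∈ chart O F x)
    (h₂ : algebraMap E F x⁻¹ ^ i * (algebraMap E F (algebraMap O E ϖ) * w) ∈ chart O F x⁻¹) :
    w ∈ chart O F x ∧ algebraMap E F x⁻¹ ^ i * w ∈ chart O F x⁻¹ := sorry

theorem red_mem_LL (K : Type*) [Field K] [CharZero K] [Algebra O K]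
    [IsFractionRing O K] [Algebra K E] [IsScalarTower O K E]
    (ϖ : O) (hϖ : Irreducible ϖ) (x : E) (hx : Transcendental K x)
    (hgen : IntermediateField.adjoin K {x} = ⊤) (𝒟 : ValuationSubring F)
    (hG : GaussData O ϖ 𝒟 x) (res : O →+* k₀) (red : 𝒟 →+* Fk₀)
    (hcomp : ∀ a : O, red ⟨algebraMap E F (algebraMap O E a), hG.algebraMap_mem a⟩ =
      algebraMap k₀ Fk₀ (res a))
    (hxD : algebraMap E F x ∈ 𝒟) {i : ℕ} (f : 𝒟) (h₁ : (f : F) ∈ chart O F x)
    (h₂ : algebraMap E F x⁻¹ ^ i * (f : F) ∈ chart O F x⁻¹) :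
    red f ∈ LL k₀ (red ⟨algebraMap E F x, hxD⟩) i := sorry

end L4

/-! ### L5 : file `Geom/Lift/Elt.lean` : lifting of elements of `LL k₀ xb i` to `Λ_i` -/
section L5

theorem exists_lift (K : Type*) [Field K] [CharZero K] [Algebra O K]
    [IsFractionRing O K] [Algebra K E] [IsScalarTower O K E]
    (ϖ : O) (hϖ : Irreducible ϖ) (x : E) (hx : Transcendental K x)
    (hgen : IntermediateField.adjoin K {x} = ⊤) (𝒟 : ValuationSubring F)
    (hG : GaussData O ϖ 𝒟 x)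
    (N0 : IsDedekindDomain (chart O F x ⧸ Ideal.span {unifChart O F ϖ x}))
    (N1 : IsDedekindDomain (chart O F x⁻¹ ⧸ Ideal.span {unifChart O F ϖ x⁻¹}))
    (res : O →+* k₀) (red : 𝒟 →+* Fk₀) (hres : Function.Surjective res)
    (hred : Function.Surjective red)
    (hcomp : ∀ a : O, red ⟨algebraMap E F (algebraMap O E a), hG.algebraMap_mem a⟩ =
      algebraMap k₀ Fk₀ (res a))
    (hxD : algebraMap E F x ∈ 𝒟) {i : ℕ}
    (hdec : ∀ (w : F) (s : ℕ), algebraMap E F x⁻¹ ^ s * w ∈ chart O F x⁻¹ →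
      ∃ c₁ ∈ chart O F x, ∃ c₂ ∈ chart O F x⁻¹, w = c₁ + algebraMap E F x ^ i * c₂)
    {fb : Fk₀} (hfb : fb ∈ LL k₀ (red ⟨algebraMap E F x, hxD⟩) i) :
    ∃ f : 𝒟, (f : F) ∈ chart O F x ∧ algebraMap E F x⁻¹ ^ i * (f : F) ∈ chart O F x⁻¹ ∧
      red f = fb := sorry

end L5

/-! ### L6 : file `Geom/Lift/FG.lean` : `Λ_i` is a finitely generated `O`-module -/
section L6

theorem fg_Lam (K : Type*) [Field K] [CharZero K] [Algebra O K]
    [IsFractionRing O K] [Algebra K E] [IsScalarTower O K E] [Algebra K F] [IsScalarTower K E F]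
    [Algebra O F] [IsScalarTower O E F]
    (ϖ : O) (hϖ : Irreducible ϖ) (x : E) (hx : Transcendental K x)
    (hgen : IntermediateField.adjoin K {x} = ⊤) (i : ℕ)
    (hfin : Module.Finite K (LL K (algebraMap E F x) i)) : (Lam O F x i).FG := sorry

end L6

end Fermat.Agent.S19.KM.Lift
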