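import Fermat.Agent.S19.KM.WIP.KeyBP

/-!
# S19 / KM route: blueprint of the abstract main theorem

Every `sorry` is a task; prove it in the file named in the section header (same name, same
statement); never import this file from a landed file.
-/

set_option autoImplicit false

noncomputable section

namespace Fermat.Agent.S19.KM

open AlgebraicCurve Fermat.Agent.S24.FF Fermat.Agent.Lib.RR Module Submodule

variable {K F k Fk : Type*} [Field K] [Field F] [Algebra K F] [Field k] [Field Fk] [Algebra k Fk]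

/-! ### E0 : file `Hopf/Equivariant.lean` : equivariance of the generators (no curves) -/
section E0
variable {R : RedData K F k Fk} {J : Type*} [Fintype J] [DecidableEq J] {v : J → F} {vb : J → Fk}
  {X : Type*}

theorem RedData.IsGraph.mapSub (hv : R.IsFrame v vb) {g : SemilinearAut K F} (hg : R.IsDec g)
    (hfix : ∀ j, g • v j = v j) {S : Finset J} {u u' : J → J → R.A} {W : Submodule K F}
    (h : R.IsGraph v S u W) (hu : ∀ b j, (u' b j : K) = SemilinearAut.baseAut g (u b j : K)) :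
    R.IsGraph v S u' (mapSub g W) := sorry

theorem RedData.exists_isGraph_mapSub_iff (hv : R.IsFrame v vb) {g : SemilinearAut K F}
    (hg : R.IsDec g) (hfix : ∀ j, g • v j = v j) (S : Finset J) (W : Submodule K F) :
    (∃ u, R.IsGraph v S u (mapSub g W)) ↔ ∃ u, R.IsGraph v S u W := sorry

theorem RedData.gcoord_mapSub (hv : R.IsFrame v vb) {g : SemilinearAut K F} (hg : R.IsDec g)
    (hfix : ∀ j, g • v j = v j) (S : Finset J) (W : Submodule K F) {b j : J} (hb : b ∈ S)
    (hj : j ∉ S) :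
    (R.gcoord v S (mapSub g W) b j : K) = SemilinearAut.baseAut g (R.gcoord v S W b j : K) := sorry

theorem RedData.redSub_mapSub_eq_iff (hsurj : Function.Surjective R.red) {g : SemilinearAut K F}
    (hg : R.IsDec g) (W W' : Submodule K F) :
    R.redSub (mapSub g W) = R.redSub (mapSub g W') ↔ R.redSub W = R.redSub W' := sorry

/-- transport of the generators by an element of the decomposition group -/
theorem RedData.exists_gens_smul (hsurj : Function.Surjective R.red) (hv : R.IsFrame v vb)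
    {g : SemilinearAut K F} (hg : R.IsDec g) (hfix : ∀ j, g • v j = v j)
    {𝒱 𝒱' : X → Submodule K F} (τ : X ≃ X) (h𝒱 : ∀ P, 𝒱' (τ P) = mapSub g (𝒱 P))
    {φ : X → R.A} (hφ : φ ∈ R.gens v 𝒱) :
    ∃ φ' ∈ R.gens v 𝒱', ∀ P, (φ' (τ P) : K) = SemilinearAut.baseAut g (φ P : K) := sorry

/-- the generators are inertia-equivariant -/
theorem RedData.gens_smul_ine (hv : R.IsFrame v vb) {g : SemilinearAut K F} (hg : R.IsIne g)
    (hfix : ∀ j, g • v j = v j) {𝒱 : X → Submodule K F} (τ : X ≃ X)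
    (h𝒱 : ∀ P, 𝒱 (τ P) = mapSub g (𝒱 P)) {φ : X → R.A} (hφ : φ ∈ R.gens v 𝒱) :
    ∀ P, (φ (τ P) : K) = SemilinearAut.baseAut g (φ P : K) := sorry

end E0

/-! ### E1 : file `Main.lean` -/

variable [IsCurve K F] [IsCurve k Fk] (𝔊 : GRData K F k Fk)
variable {X : Type*} [AddCommGroup X] [Finite X] (ι : X →+ Pic0 K F)

theorem GRData.VV_smul {𝔊 : GRData K F k Fk} {ι : X →+ Pic0 K F} {E₀ : Divisor K F}
    (h : 𝔊.IsAdm ι E₀) {g : SemilinearAut K F} (hg : g ∈ 𝔊.Γ)
    (hd : 𝔊.IsDec g) (hstab : ∀ P : X, ∃ P' : X, ι P' = g⁻¹ • ι P) (m : ℕ) {P P' : X}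
    (hP : ι P' = g • ι P) : 𝔊.VV ι (g • E₀) m P' = mapSub g (𝔊.VV ι E₀ m P) := sorry

/-- **Main theorem of the KM route (abstract form).**  A finite `Γ`-stable group `X` of divisor
classes of degree zero on a curve with good reduction carries a set `SS` of `A`-valued functions
which separates points, is closed under comultiplication (exactly, with coefficients in `A`),
consists of inertia-equivariant functions and is stable under the decomposition group. -/
theorem GRData.exists_SS (hι : Function.Injective ι)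
    (hstab : ∀ g ∈ 𝔊.Γ, ∀ P : X, ∃ P' : X, ι P' = g • ι P) :
    ∃ SS : Set (X → 𝔊.A),
      (∀ P Q : X, P ≠ Q → ∃ φ ∈ SS, φ P ≠ φ Q) ∧
      (∀ φ ∈ SS, (fun q : X × X => φ (q.1 + q.2)) ∈
        span 𝔊.A (𝔊.prodSet (Algebra.adjoin 𝔊.A SS))) ∧
      (∀ φ ∈ SS, ∀ g ∈ 𝔊.Γ, 𝔊.IsIne g → ∀ P P' : X, ι P' = g • ι P →
        (φ P' : K) = SemilinearAut.baseAut g (φ P : K)) ∧
      (∀ φ ∈ SS, ∀ g ∈ 𝔊.Γ, 𝔊.IsDec g → ∃ φ' ∈ SS, ∀ P P' : X, ι P' = g • ι P →
        (φ' P' : K) = SemilinearAut.baseAut g (φ P : K)) := sorry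

end Fermat.Agent.S19.KM
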