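import Fermat.Agent.S19.KM.Geom.Mod.Levels
import Fermat.Agent.S19.KM.Geom.Mod.BaseDefs
import Fermat.Agent.S19.KM.WIP.GeomBP
import Fermat.Agent.S19.KM.WIP.MainBP
import Fermat.Agent.GAL.KLInputs.Main
import Fermat.Agent.S28.Export.Main
import Fermat.Agent.Lib.InertiaField.Residue
import Fermat.Agent.Lib.RR.CharP
import Fermat.Agent.Lib.RR.Sep

/-!
# S19 / KM route: blueprint of block [G], modular part

Every `sorry` is a task; prove it in the file named in the section header (same name, same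
statement); never import this file from a landed file.

Notation: `F₀ = modularFunctionFieldFull N ⊆ ℚ((q))`, `F_K = laurentBaseChange K F₀ ⊆ K((q))`,
`A` a valuation ring of `ℚ̄` over `ℓ ∤ N`, `k` its residue field, `K₀ = ⊥ (= ℚ) ⊆ ℚ̄`,
`A₀ = restrict A K₀` (a discrete valuation ring), `k₀` its residue field (`= 𝔽_ℓ`).
-/

set_option autoImplicit false

noncomputable section

namespace Fermat.Agent.S19.KM.Mod

open ModularCurve AlgebraicCurve Fermat.Agent.S28.Export Fermat.Agent.S18.Descent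
  Fermat.Agent.S24.FF Fermat.Agent.Lib.RR Module Submodule IntermediateField

local notation "Qb" => AlgebraicClosure ℚ
local notation "GQ" => (AlgebraicClosure ℚ ≃ₐ[ℚ] AlgebraicClosure ℚ)
local notation "kk" A => IsLocalRing.ResidueField (↥A)

variable (N : ℕ) [NeZero N] {ℓ : ℕ} [Fact ℓ.Prime] (A : ValuationSubring Qb)

/-! ### M1 : file `Geom/Mod/Base.lean` : goodness, base coordinates -/
section M1

theorem isGood_baseChange {K : Type*} [Field K] [Algebra ℚ K] (O : ValuationSubring K)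
    (hN : ¬ ℓ ∣ N) (hO : O.LiesOverPrime ℓ) :
    IsGood O (laurentBaseChange K (modularFunctionFieldFull N)) := sorry

variable {N} in
theorem ser_mem {xZ : LaurentSeries ℤ} (hx : IsBaseCoord N xZ) (K : Type*) [Field K] [Algebra ℚ K] :
    ser K xZ ∈ laurentBaseChange K (modularFunctionFieldFull N) := sorry

theorem red_ser {K : Type*} [Field K] (O : ValuationSubring K) (xZ : LaurentSeries ℤ) :
    Red O (ser K xZ) (ser (kk O) xZ) := sorry

theorem isBaseCoord_j : IsBaseCoord N (jqModC ℤ) := sorry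

theorem isBaseCoord_h2 (hN : 2 ∣ N) :
    IsBaseCoord N (Fermat.Agent.Lib.Hauptmodul.toL ℤ Fermat.Agent.Lib.Hauptmodul.h2Z) := sorry

theorem isBaseCoord_h3 (hN : 3 ∣ N) :
    IsBaseCoord N (Fermat.Agent.Lib.Hauptmodul.toL ℤ Fermat.Agent.Lib.Hauptmodul.h3Z) := sorry

end M1

/-! ### M2 : file `Geom/Mod/Curve.lean` : the two curves -/
section M2

theorem isCurve_bar : IsCurve Qb (modularFunctionFieldBar N) := sorry

/-- `F_k / k(x)` is finite -/
theorem finiteDimensional_res (hN : ¬ ℓ ∣ N) (hA : A.LiesOverPrime ℓ) {xZ : LaurentSeries ℤ}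
    (hx : IsBaseCoord N xZ) (xk : resField A (modularFunctionFieldBar N))
    (hxk : (xk : LaurentSeries (kk A)) = ser (kk A) xZ) :
    FiniteDimensional (kk A)⟮xk⟯ (resField A (modularFunctionFieldBar N)) := sorry

/-- `F_k / k(x)` is separable -/
theorem isSeparable_res (hN : ¬ ℓ ∣ N) (hA : A.LiesOverPrime ℓ) {xZ : LaurentSeries ℤ}
    (hx : IsBaseCoord N xZ) (xk : resField A (modularFunctionFieldBar N))
    (hxk : (xk : LaurentSeries (kk A)) = ser (kk A) xZ) :
    Algebra.IsSeparable (kk A)⟮xk⟯ (resField A (modularFunctionFieldBar N)) := sorry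

theorem isCurve_res (hN : ¬ ℓ ∣ N) (hA : A.LiesOverPrime ℓ) :
    IsCurve (kk A) (resField A (modularFunctionFieldBar N)) := sorry

end M2

/-! ### M3 : file `Geom/Mod/Residue.lean` : the residue fields -/
section M3

theorem isSeparable_residue (hA : A.LiesOverPrime ℓ) :
    Algebra.IsSeparable (kk (restrict A (⊥ : IntermediateField ℚ Qb))) (kk A) := sorry

theorem exists_teich_mod (hA : A.LiesOverPrime ℓ) (c : kk A) :
    ∃ a : A, IsLocalRing.residue A a = c ∧ ∀ σ ∈ A.inertiaSubgroupIn ℚ, σ (a : Qb) = a := sorry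

end M3

/-! ### M4 : file `Geom/Mod/Compositum.lean` : the hypotheses of the descent lemmas -/
section M4
variable (K₀ : IntermediateField ℚ Qb) (F₀ : IntermediateField ℚ (LaurentSeries ℚ))

theorem isCompositum_bar : IsCompositum Qb (baseChangeMap F₀ (algebraMap K₀ Qb)) := sorry

theorem isLinDisj_bar : IsLinDisj K₀ Qb (baseChangeMap F₀ (algebraMap K₀ Qb)) := sorry

theorem resMap_algebraMap (a : kk (restrict A K₀)) :
    resMap A K₀ F₀ (algebraMap _ _ a) = algebraMap (kk A) _ (algebraMap _ (kk A) a) := sorry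

theorem isLinDisj_res : IsLinDisj (kk (restrict A K₀)) (kk A) (resMap A K₀ F₀) := sorry

theorem isCompositum_res (hN : ¬ ℓ ∣ N) (hA : A.LiesOverPrime ℓ) :
    IsCompositum (kk A) (resMap A (⊥ : IntermediateField ℚ Qb) (modularFunctionFieldFull N)) :=
  sorry

theorem red_compat (h : IsGood A (laurentBaseChange Qb F₀))
    (h₀ : IsGood (restrict A K₀) (laurentBaseChange K₀ F₀))
    (f : gaussRing (restrict A K₀) (laurentBaseChange K₀ F₀) h₀) :
    (redData h).Red (baseChangeMap F₀ (algebraMap K₀ Qb) (f : laurentBaseChange K₀ F₀))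
      (resMap A K₀ F₀ (redE h₀ f)) := sorry

end M4

/-! ### M5 : file `Geom/Mod/Galois.lean` : the Galois action -/
section M5
variable (F₀ : IntermediateField ℚ (LaurentSeries ℚ))

theorem arith_smul_baseChangeMap (σ : GQ)
    (f : laurentBaseChange (⊥ : IntermediateField ℚ Qb) F₀) :
    arithmeticGalois F₀ σ • baseChangeMap F₀ (algebraMap (⊥ : IntermediateField ℚ Qb) Qb) f =
      baseChangeMap F₀ (algebraMap (⊥ : IntermediateField ℚ Qb) Qb) f := sorry

variable {A F₀} (h : IsGood A (laurentBaseChange Qb F₀))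

theorem isDec_arith {σ : GQ} (hσ : σ ∈ A.decompositionSubgroup ℚ) :
    (redData h).IsDec (arithmeticGalois F₀ σ) := sorry

theorem isIne_arith {σ : GQ} (hσ : σ ∈ A.inertiaSubgroupIn ℚ) :
    (redData h).IsIne (arithmeticGalois F₀ σ) := sorry

theorem mem_inertia_of_isIne {σ : GQ} (hσ : (redData h).IsIne (arithmeticGalois F₀ σ)) :
    σ ∈ A.inertiaSubgroupIn ℚ := sorry

end M5

/-! ### M6 : files `Geom/Mod/Frames*.lean` : the frames over `A₀` (sub-architect: helper30) -/
section M6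

/-- **the frames over the discrete valuation ring `A₀`**: instantiate `exists_frames_LL` with
`O = A₀`, `K = K₀`, `F = F_{K₀}`, `E = K₀(x)`, `𝒟 = gaussRing = Vert.gaussVal`, `x = j, h₂, h₃`. -/
theorem exists_baseCoord_frames (hN : ¬ ℓ ∣ N) (h3 : ℓ = 3 → 2 ∣ N) (h2 : ℓ = 2 → 3 ∣ N)
    (hA : A.LiesOverPrime ℓ)
    (h₀ : IsGood (restrict A (⊥ : IntermediateField ℚ Qb))
      (laurentBaseChange (⊥ : IntermediateField ℚ Qb) (modularFunctionFieldFull N))) :
    ∃ xZ : LaurentSeries ℤ, IsBaseCoord N xZ ∧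
    ∃ x₀ : gaussRing _ _ h₀,
      (((x₀ : gaussRing _ _ h₀) :
        laurentBaseChange (⊥ : IntermediateField ℚ Qb) (modularFunctionFieldFull N)) :
          LaurentSeries (⊥ : IntermediateField ℚ Qb)) = ser _ xZ ∧
    ∃ i₀ : ℕ, ∀ i, i₀ ≤ i → ∃ (m : ℕ) (v : Fin m → gaussRing _ _ h₀),
      span (⊥ : IntermediateField ℚ Qb) (Set.range fun j => ((v j : gaussRing _ _ h₀) :
        laurentBaseChange (⊥ : IntermediateField ℚ Qb) (modularFunctionFieldFull N))) =
          LL (⊥ : IntermediateField ℚ Qb) ((x₀ : gaussRing _ _ h₀) :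
            laurentBaseChange (⊥ : IntermediateField ℚ Qb) (modularFunctionFieldFull N)) i ∧
      LinearIndependent (kk (restrict A (⊥ : IntermediateField ℚ Qb))) (fun j => redE h₀ (v j)) ∧
      span (kk (restrict A (⊥ : IntermediateField ℚ Qb))) (Set.range fun j => redE h₀ (v j)) =
        LL (kk (restrict A (⊥ : IntermediateField ℚ Qb))) (redE h₀ x₀) i := sorry

end M6

/-! ### M7 : file `Geom/Mod/Main.lean` : the main theorem of the KM route for `X₀(N)` -/
section M7

/-- **Main theorem of the KM route for `J₀(N)`**, at the levels with a good base coordinate. -/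
theorem exists_SS_modular (hN : ¬ ℓ ∣ N) (h3 : ℓ = 3 → 2 ∣ N) (h2 : ℓ = 2 → 3 ∣ N)
    (hA : A.LiesOverPrime ℓ) {X : Type*} [AddCommGroup X] [Finite X] (ι : X →+ JZero N)
    (hι : Function.Injective ι) (hstab : ∀ (σ : GQ) (P : X), ∃ P' : X, ι P' = σ • ι P) :
    ∃ SS : Set (X → A),
      (∀ P Q : X, P ≠ Q → ∃ φ ∈ SS, φ P ≠ φ Q) ∧
      (∀ φ ∈ SS, (fun q : X × X => φ (q.1 + q.2)) ∈
        span A {Φ : X × X → A | ∃ a ∈ Algebra.adjoin A SS, ∃ b ∈ Algebra.adjoin A SS,
          Φ = fun q => a q.1 * b q.2}) ∧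
      (∀ φ ∈ SS, ∀ σ ∈ A.inertiaSubgroupIn ℚ, ∀ P P' : X, ι P' = σ • ι P →
        (φ P' : Qb) = σ (φ P : Qb)) ∧
      (∀ φ ∈ SS, ∀ σ ∈ A.decompositionSubgroup ℚ, ∃ φ' ∈ SS, ∀ P P' : X, ι P' = σ • ι P →
        (φ' P' : Qb) = σ (φ P : Qb)) := sorry

end M7

end Fermat.Agent.S19.KM.Mod
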