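import Fermat.Agent.S19.KM.WIP.ModBP
import Fermat.Agent.S19.T.Main
import Fermat.Agent.S19.Glue.Defs
import Fermat.Agent.S19.Glue.Level
import Fermat.Agent.S19.FlatOfOrder
import Fermat.Agent.Lib.Frobenius

/-!
# S19 / KM route: from `exists_SS_modular` to the frozen statement

PARKED COPY: imports `WIP/ModBP`; the final file `KM/Top.lean` imports `KM/Geom/Mod/Main.lean`.
Owner: helper19.
-/

set_option autoImplicit false

noncomputable section

namespace Fermat.Agent.S19.KM.Top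

open ModularCurve AlgebraicCurve Fermat.Agent.S19.Glue

/-- coercion of functions -/
def coeFun' (A : ValuationSubring Qb) {Y : Type} (φ : Y → A) : Y → Qb := fun y => (φ y : Qb)

/-- coercion of functions, as an `A`-algebra homomorphism -/
def coeHom (A : ValuationSubring Qb) (Y : Type) : (Y → A) →ₐ[A] (Y → Qb) where
  toFun φ := fun y => (φ y : Qb)
  map_one' := rfl
  map_mul' _ _ := rfl
  map_zero' := rfl
  map_add' _ _ := rfl
  commutes' _ := rfl

theorem fst_mem_adjoin_pull (A : ValuationSubring Qb) {X : Type} (SS : Set (X → A)) {a : X → A}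
    (ha : a ∈ Algebra.adjoin A SS) :
    (fun q : X × X => ((a q.1 : A) : Qb)) ∈ Algebra.adjoin A (pull (coeHom A X '' SS)) := by
  induction ha using Algebra.adjoin_induction with
  | mem φ hφ => exact Algebra.subset_adjoin ⟨_, ⟨φ, hφ, rfl⟩, Or.inl rfl⟩
  | algebraMap r => exact (Algebra.adjoin A _).algebraMap_mem r
  | add x y _ _ hx hy => exact (Algebra.adjoin A _).add_mem hx hy
  | mul x y _ _ hx hy => exact (Algebra.adjoin A _).mul_mem hx hy

theorem snd_mem_adjoin_pull (A : ValuationSubring Qb) {X : Type} (SS : Set (X → A)) {a : X → A}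
    (ha : a ∈ Algebra.adjoin A SS) :
    (fun q : X × X => ((a q.2 : A) : Qb)) ∈ Algebra.adjoin A (pull (coeHom A X '' SS)) := by
  induction ha using Algebra.adjoin_induction with
  | mem φ hφ => exact Algebra.subset_adjoin ⟨_, ⟨φ, hφ, rfl⟩, Or.inr rfl⟩
  | algebraMap r => exact (Algebra.adjoin A _).algebraMap_mem r
  | add x y _ _ hx hy => exact (Algebra.adjoin A _).add_mem hx hy
  | mul x y _ _ hx hy => exact (Algebra.adjoin A _).mul_mem hx hy

theorem coe_mem_adjoin_pull (A : ValuationSubring Qb) {X : Type} (SS : Set (X → A))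
    {Φ : X × X → A}
    (hΦ : Φ ∈ Submodule.span A {Φ : X × X → A | ∃ a ∈ Algebra.adjoin A SS,
      ∃ b ∈ Algebra.adjoin A SS, Φ = fun q => a q.1 * b q.2}) :
    coeHom A (X × X) Φ ∈ Algebra.adjoin A (pull (coeHom A X '' SS)) := by
  induction hΦ using Submodule.span_induction with
  | mem Φ h =>
    obtain ⟨a, ha, b, hb, rfl⟩ := h
    exact (Algebra.adjoin A _).mul_mem (fst_mem_adjoin_pull A SS ha) (snd_mem_adjoin_pull A SS hb)
  | zero => rw [map_zero]; exact (Algebra.adjoin A _).zero_mem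
  | add x y _ _ hx hy => rw [map_add]; exact (Algebra.adjoin A _).add_mem hx hy
  | smul r x _ hx => rw [map_smul]; exact (Algebra.adjoin A _).smul_mem hx r

theorem isSmoothAct_tors' (N n : ℕ) [NeZero N] (hn : 0 < n) : IsSmoothAct (Tors N n) := by
  have := finite_tors N n hn
  obtain ⟨L, hL, h⟩ := Fermat.Agent.GAL.E.exists_finite_level_of_finite
    (fun (x : Tors N n) (σ : Gal) => σ • x = x) (exists_finite_level N n)
  exact ⟨L, hL, fun σ hσ y => h σ ((IntermediateField.mem_fixingSubgroup_iff L σ).1 hσ) y⟩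

/-- the Hopf order on `J₀(M)[n]` at the levels with a good base coordinate -/
theorem hasHopfOrder_tors_good (M ℓ : ℕ) [NeZero M] [hℓ : Fact ℓ.Prime] (hM : ¬ ℓ ∣ M)
    (h3 : ℓ = 3 → 2 ∣ M) (h2 : ℓ = 2 → 3 ∣ M) {n : ℕ} (hn : 0 < n) :
    HasHopfOrder ℓ (Tors M n) := by
  have := finite_tors M n hn
  obtain ⟨A, Fr, hA, hFr⟩ := Fermat.Agent.Lib.Frobenius.exists_liesOverPrime_isFrobeniusAt ℓ hℓ.out
  let ι : Tors M n →+ JZero M := (Pic0.torsion Qb (modularFunctionFieldBar M) n).subtype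
  have hι : Function.Injective ι := Subtype.val_injective
  obtain ⟨SS, hsep, hmul, hI, hD⟩ := Mod.exists_SS_modular M A hM h3 h2 hA ι hι
    (fun σ P => ⟨σ • P, rfl⟩)
  refine hasHopfOrder_of_local (isSmoothAct_tors' M n hn) hA hFr (coeHom A _ '' SS) ?_ ?_ ?_ ?_ ?_
  · rintro _ ⟨φ, -, rfl⟩ x
    exact (φ x).2
  · rintro _ ⟨φ, hφ, rfl⟩ σ hσ x
    exact hI φ hφ σ hσ x (σ • x) rfl
  · rintro _ ⟨φ, hφ, rfl⟩
    obtain ⟨φ', hφ', h⟩ := hD φ hφ Fr hFr.mem_decompositionSubgroup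
    refine ⟨φ', hφ', ?_⟩
    funext y
    have := h (Fr⁻¹ • y) y (by
      show (y : JZero M) = Fr • ((Fr⁻¹ • y : Tors M n) : JZero M)
      rw [← coe_smul, smul_inv_smul])
    exact this
  · intro x y hxy
    obtain ⟨φ, hφ, h⟩ := hsep x y hxy
    exact ⟨_, ⟨φ, hφ, rfl⟩, fun h' => h (Subtype.ext h')⟩
  · rintro _ ⟨φ, hφ, rfl⟩ m
    refine ⟨_, coe_mem_adjoin_pull A SS (hmul φ hφ), fun x y => ⟨0, A.zero_mem, ?_⟩⟩
    rw [mul_zero]
    exact sub_self _

/-- the Hopf order on `J₀(N)[ℓ ^ k]`, `ℓ ∤ N` -/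
theorem hasHopfOrder_tors (N ℓ : ℕ) [NeZero N] [hℓ : Fact ℓ.Prime] (hℓN : ¬ ℓ ∣ N) (k : ℕ) :
    HasHopfOrder ℓ (Tors N (ℓ ^ k)) := by
  have hn : 0 < ℓ ^ k := pow_pos hℓ.out.pos k
  by_cases e3 : ℓ = 3
  · by_cases h2N : 2 ∣ N
    · exact hasHopfOrder_tors_good N ℓ hℓN (fun _ => h2N) (fun h => by omega) hn
    · refine hasHopfOrder_of_level N 2 ℓ Nat.prime_two h2N hn ?_
      refine hasHopfOrder_tors_good (N * 2) ℓ ?_ (fun _ => Dvd.intro_left N rfl)
        (fun h => by omega) hn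
      intro h
      rcases (Nat.Prime.dvd_mul hℓ.out).1 h with h | h
      · exact hℓN h
      · rw [e3] at h; omega
  by_cases e2 : ℓ = 2
  · by_cases h3N : 3 ∣ N
    · exact hasHopfOrder_tors_good N ℓ hℓN (fun h => absurd h e3) (fun _ => h3N) hn
    · refine hasHopfOrder_of_level N 3 ℓ Nat.prime_three h3N hn ?_
      refine hasHopfOrder_tors_good (N * 3) ℓ ?_ (fun h => absurd h e3)
        (fun _ => Dvd.intro_left N rfl) hn
      intro h
      rcases (Nat.Prime.dvd_mul hℓ.out).1 h with h | h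
      · exact hℓN h
      · rw [e2] at h; omega
  · exact hasHopfOrder_tors_good N ℓ hℓN (fun h => absurd h e3) (fun h => absurd h e2) hn

/-- **the frozen statement S19** -/
theorem frozen (p : ℕ) [NeZero p] (ℓ : ℕ) [hℓ : Fact ℓ.Prime] (hℓp : ¬ ℓ ∣ p) (k : ℕ) :
    ∃ (H : Type) (_ : CommRing H) (_ : HopfAlgebra (GaloisRep.ratLocalizedAt ℓ) H),
      Module.Finite (GaloisRep.ratLocalizedAt ℓ) H ∧ Module.Flat (GaloisRep.ratLocalizedAt ℓ) H ∧
      Coalgebra.IsCocomm (GaloisRep.ratLocalizedAt ℓ) H ∧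
      ∃ e : WithConv (H →ₐ[GaloisRep.ratLocalizedAt ℓ] AlgebraicClosure ℚ) ≃
          ↥(Submodule.torsionBy ℤ (JZero p) ((ℓ : ℤ) ^ k)),
        (∀ f g, e (f * g) = e f + e g) ∧
        ∀ (σ : AlgebraicClosure ℚ ≃ₐ[ℚ] AlgebraicClosure ℚ)
          (f g : WithConv (H →ₐ[GaloisRep.ratLocalizedAt ℓ] AlgebraicClosure ℚ)),
          (∀ h : H, g h = σ (f h)) → ((e g : JZero p)) = σ • (e f : JZero p) := by
  have := finite_tors p (ℓ ^ k) (pow_pos hℓ.out.pos k)
  exact frozen_of_isFlatModule p ℓ k (hasHopfOrder_tors p ℓ hℓp k).isFlatModule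

end Fermat.Agent.S19.KM.Top
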